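/-
GAMMA-KEY (helper8), lattice layer 4: existence of orthonormal frames and sub-frames (port of
helper1's `Lib/Alpha/Key/FrameEx.lean` from `TbBase` to `T2Base`, `Fb` a commutative ring).

`d : T2Base K F k Fb` (lattice layer, no curve).

* `s33x_exists_frame`    : every finite-dimensional `U ≤ F` is the `K`-span of an orthonormal frame
  with `finrank K U` members;
* `s33x_exists_subframe` : a subspace `U'` of the span of a frame `Fr` has an orthonormal basis whose
  coordinates in `Fr` are in `A`; the family is a `K`-basis of `U'` and its residues are a `k`-basis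
  of the reduction of the unit ball of `U'`;
* `S33xMul.mul_eq_res`   : the residue of the multiplication table of three frames.
-/
import Fermat.Agent.Lib.S33.Key.SectionN
import Fermat.Agent.Lib.S33.Key.BasisN

set_option autoImplicit false
set_option linter.style.haveILetI false
set_option linter.unusedSectionVars false

namespace Fermat.Agent.S33

open Fermat.Agent.T2 Fermat.Agent.Alpha

variable {K F k Fb : Type*} [Field K] [Field F] [Algebra K F] [Field k] [CommRing Fb] [Algebra k Fb]

/-- the span of a frame is finite-dimensional -/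
theorem S33xFrame.finiteDimensional_spanK {d : T2Base K F k Fb} {N : ℕ} (Fr : S33xFrame d N) :
    FiniteDimensional K ↥Fr.spanK :=
  FiniteDimensional.span_of_finite K (Set.finite_range Fr.e)

/-- **existence of orthonormal frames**: every finite-dimensional subspace is the span of an
orthonormal frame -/
theorem s33x_exists_frame (d : T2Base K F k Fb) (U : Submodule K F) [FiniteDimensional K ↥U] :
    ∃ Fr : S33xFrame d (Module.finrank K ↥U), Fr.spanK = U := by
  obtain ⟨b, hb, hli, hspan⟩ := s33r_exists_basis d U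
  exact ⟨⟨b, fun s => (hb s).2, hli⟩, (s33r_basis d U b hb hli hspan).2.1⟩

/-- a more detailed version of `s33x_exists_frame`: the members are in the unit ball of `U` and
the residues span the reduction of the unit ball -/
theorem s33x_exists_frame' (d : T2Base K F k Fb) (U : Submodule K F) [FiniteDimensional K ↥U] :
    ∃ Fr : S33xFrame d (Module.finrank K ↥U), Fr.spanK = U ∧ (∀ s, Fr.e s ∈ d.ball U) ∧
      Fr.spanB = d.resBall U := by
  obtain ⟨Fr, hFr⟩ := s33x_exists_frame d U
  refine ⟨Fr, hFr, fun s => ⟨?_, Fr.mem s⟩, ?_⟩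
  · have h : Fr.e s ∈ Fr.spanK := Submodule.subset_span ⟨s, rfl⟩
    rw [hFr] at h
    exact h
  · have h := Fr.resBall_spanK
    rw [hFr] at h
    exact h.symm

/-- **existence of orthonormal sub-frames**: a subspace `U'` of the span of the frame `Fr` has a basis
with coordinates in `A` whose residues are a basis of the reduction of the unit ball of `U'` -/
theorem s33x_exists_subframe {d : T2Base K F k Fb} {N : ℕ} (Fr : S33xFrame d N)
    (U' : Submodule K F) (hU' : U' ≤ Fr.spanK) :
    ∃ β : Fin (Module.finrank K ↥U') → Fin N → ↥d.A,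
      LinearIndependent K (fun t => Fr.comb fun s => ((β t s : ↥d.A) : K)) ∧
      Submodule.span K (Set.range fun t => Fr.comb fun s => ((β t s : ↥d.A) : K)) = U' ∧
      LinearIndependent k (fun t => Fr.combB fun s => d.resA (β t s)) ∧
      Submodule.span k (Set.range fun t => Fr.combB fun s => d.resA (β t s)) = d.resBall U' := by
  haveI := Fr.finiteDimensional_spanK
  haveI : FiniteDimensional K ↥U' := Submodule.finiteDimensional_of_le hU'
  obtain ⟨b, hb, hli, hspan⟩ := s33r_exists_basis d U'
  obtain ⟨hK, hsp, -⟩ := s33r_basis d U' b hb hli hspan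
  have h1 : ∀ t, ∃ a : Fin N → ↥d.A, b t = Fr.comb (fun s => ((a s : ↥d.A) : K)) := fun t =>
    Fr.mem_ball_iff.mp (d.ball_mono hU' (hb t))
  choose β hβ using h1
  have hb' : (fun t => Fr.comb fun s => ((β t s : ↥d.A) : K)) = b := funext fun t => (hβ t).symm
  have hres : (fun t => Fr.combB fun s => d.resA (β t s)) = fun t => d.res ⟨b t, (hb t).2⟩ := by
    funext t
    rw [← Fr.res_comb (β t)]
    exact (d.res_congr (hb t).2 (hβ t)).symm
  refine ⟨β, ?_, ?_, ?_, ?_⟩
  · rw [hb']; exact hK
  · rw [hb']; exact hsp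
  · rw [hres]; exact hli
  · rw [hres]
    refine le_antisymm (Submodule.span_le.2 ?_) hspan
    rintro _ ⟨t, rfl⟩
    exact ⟨b t, hb t, rfl⟩

/-- the residue of the multiplication table -/
theorem S33xMul.mul_eq_res {d : T2Base K F k Fb} {N₁ N₂ N₃ : ℕ} {Fr₁ : S33xFrame d N₁}
    {Fr₂ : S33xFrame d N₂} {Fr₃ : S33xFrame d N₃} (μ : S33xMul Fr₁ Fr₂ Fr₃) (i : Fin N₁)
    (j : Fin N₂) : Fr₁.eb i * Fr₂.eb j = Fr₃.combB fun p => d.resA (μ.γ i j p) := by
  rw [← Fr₃.res_comb (μ.γ i j)]
  show d.res ⟨Fr₁.e i, Fr₁.mem i⟩ * d.res ⟨Fr₂.e j, Fr₂.mem j⟩ = _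
  rw [← d.res_mul' (Fr₁.mem i) (Fr₂.mem j)]
  exact d.res_congr _ (μ.mul_eq i j)

end Fermat.Agent.S33
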