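/-
GAMMA-KEY (helper8): **the ONE-CLUSTER CHART over a two-valuation base** and its chart functions.

Setting: `F / K` a function field (CurveP setting, generator `x`), `d : T2Base K F k Fb` a
two-valuation base (`Fb` a commutative `k`-algebra, in the application `κ_∞ × κ_0`).  ALL closed-fibre
data are expressed through `d.resBall (riemannRochSpace ·)`; no reduction of divisors is used.

A one-cluster chart for a finite abelian group `V` consists of
* a base divisor `B` of degree `n ≥ 6 g + 2`;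
* effective divisors `E0`, `D v` (`v : V`) of degree `g` with `D (v + w) + E0 ∼ D v + D w`,
  `D` injective, `ℓ(D v) = 1`;
* (CL) ONE CLUSTER: `resBall L(B - D v) = resBall L(B - E0) =: W̄₀` for all `v`;
* an orthonormal frame `e` of `L(B)` and `g` integral vectors `c i` (coordinates w.r.t. `e`) with
  (G2) `resBall L(B) = W̄₀ ⊕ span c̄`;
* the closed-fibre KM facts: (KM-prod) `resBall L(2B - 2E0) ≤ W̄₀ · W̄₀`,
  (KM-hom) `{h | h · resBall L(2B - 2E0) ⊆ resBall L(2B - E0)} = k`,
  (KM-col) `{u ∈ resBall L(B) | u · W̄₀ ⊆ resBall L(2B - 2E0)} = W̄₀`,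
  (KM-unit) every spanning family of `W̄₀` contains a unit of `Fb`.

This file: the structure and the chart functions `m j i : V → A`
(`e_j - ∑ i, m j i v • cF_i ∈ L(B - D v)`), port of helper4's `Lib/Alpha/Key/ChartFun.lean`.
-/
import Fermat.Agent.Lib.S33.Key.FrameExN
import Fermat.Agent.Lib.Alpha.KM.HomKer

set_option autoImplicit false
set_option linter.style.haveILetI false
set_option linter.unusedSectionVars false

namespace Fermat.Agent.S33

open AlgebraicCurve IntermediateField Fermat.Agent.Curve Fermat.Agent.CurveP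
  Fermat.Agent.Curve.PlaceAux Fermat.Agent.T2 RRAux Fermat.Agent.Alpha

variable {K F k Fb : Type*} [Field K] [Field F] [Algebra K F] [Field k] [CommRing Fb] [Algebra k Fb]
variable [IsAlgClosed K]

/-- a one-cluster chart over a two-valuation base (see the header) -/
structure S33xChart (d : T2Base K F k Fb) (V : Type*) [AddCommGroup V] where
  /-- the base divisor -/
  B : Divisor K F
  /-- its degree -/
  n : ℕ
  hBdeg : Divisor.degree B = (n : ℤ)
  hn : 6 * genusR K F + 2 ≤ n
  /-- the base point of the chart -/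
  E0 : Divisor K F
  hE0 : 0 ≤ E0
  hE0deg : Divisor.degree E0 = genusR K F
  /-- the divisors of the points -/
  D : V → Divisor K F
  hD : ∀ v, 0 ≤ D v
  hDdeg : ∀ v, Divisor.degree (D v) = genusR K F
  hDinj : Function.Injective D
  hadd : ∀ v w, ∃ h : F, h ≠ 0 ∧ ∀ P : Place K F, P.ord h = (D (v + w) + E0 - D v - D w) P
  /-- (G1), on the generic fibre -/
  hell : ∀ v, ell (D v) = 1
  /-- the size of the frame -/
  N : ℕ
  /-- the frame of `L(B)` -/
  Fr : S33xFrame d N
  hFr : Fr.spanK = riemannRochSpace B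
  /-- the complement vectors, in coordinates -/
  c : Fin (genusR K F) → Fin N → ↥d.A
  /-- (CL) one cluster -/
  hcl : ∀ v, d.resBall (riemannRochSpace (B - D v)) = d.resBall (riemannRochSpace (B - E0))
  /-- (G2) -/
  hG2a : ∀ γ : Fin (genusR K F) → k,
    (∑ i, γ i • Fr.combB (fun s => d.resA (c i s))) ∈ d.resBall (riemannRochSpace (B - E0)) →
      γ = 0
  hG2b : Fr.spanB ≤ d.resBall (riemannRochSpace (B - E0)) ⊔
    Submodule.span k (Set.range fun i => Fr.combB (fun s => d.resA (c i s)))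
  /-- (KM-prod) -/
  hKprod : d.resBall (riemannRochSpace (B + B - E0 - E0)) ≤
    d.resBall (riemannRochSpace (B - E0)) * d.resBall (riemannRochSpace (B - E0))
  /-- (KM-hom) -/
  hKhom : ∀ h : Fb, (∀ t ∈ d.resBall (riemannRochSpace (B + B - E0 - E0)),
    h * t ∈ d.resBall (riemannRochSpace (B + B - E0))) → ∃ a : k, h = algebraMap k Fb a
  /-- (KM-col) -/
  hKcol : ∀ u ∈ d.resBall (riemannRochSpace B),
    (∀ b ∈ d.resBall (riemannRochSpace (B - E0)),
      u * b ∈ d.resBall (riemannRochSpace (B + B - E0 - E0))) →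
      u ∈ d.resBall (riemannRochSpace (B - E0))
  /-- (KM-unit) -/
  hKunit : ∀ {ι : Type} (f : ι → Fb),
    Submodule.span k (Set.range f) = d.resBall (riemannRochSpace (B - E0)) → ∃ j, IsUnit (f j)

namespace S33xChart

variable {d : T2Base K F k Fb} {V : Type*} [AddCommGroup V] (ch : S33xChart d V)
variable {x : F} (hx : IsFunctionFieldGen K F x)
  [Algebra.IsSeparable (IntermediateField.adjoin K {x}) F]

/-- the complement functions `c i ∈ L(B) ∩ 𝒪` -/
noncomputable def cF (i : Fin (genusR K F)) : F := ch.Fr.comb fun s => ((ch.c i s : ↥d.A) : K)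

/-- their residues -/
noncomputable def cB (i : Fin (genusR K F)) : Fb := ch.Fr.combB fun s => d.resA (ch.c i s)

/-- `L(B - D v)` -/
noncomputable def W (v : V) : Submodule K F := riemannRochSpace (ch.B - ch.D v)

/-- the common reduction `W̄₀ = resBall L(B - E0)` -/
noncomputable def Wb : Submodule k Fb := d.resBall (riemannRochSpace (ch.B - ch.E0))

/-- `L(B)` -/
noncomputable def U : Submodule K F := riemannRochSpace ch.B

/-- `deg (B - D v) = n - g` -/
theorem degree_sub (v : V) :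
    Divisor.degree (ch.B - ch.D v) = (ch.n : ℤ) - genusR K F := by
  rw [map_sub, ch.hBdeg, ch.hDdeg v]

theorem hn' : 6 * (genusR K F : ℤ) + 2 ≤ (ch.n : ℤ) := by exact_mod_cast ch.hn

theorem spanK_eq_U : ch.Fr.spanK = ch.U := ch.hFr

theorem W_le_U (v : V) : ch.W v ≤ ch.U := by
  apply riemannRochSpace_mono
  exact sub_le_self _ (ch.hD v)

/-- reduction of `W v` -/
theorem resBall_W (v : V) : d.resBall (ch.W v) = ch.Wb := ch.hcl v

theorem resBall_U : d.resBall ch.U = ch.Fr.spanB := by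
  rw [← ch.spanK_eq_U]
  exact ch.Fr.resBall_spanK

theorem Wb_le_spanB : ch.Wb ≤ ch.Fr.spanB := by
  rw [← ch.resBall_U]
  exact d.resBall_mono (riemannRochSpace_mono (sub_le_self _ ch.hE0))

theorem cF_mem_Ov (i : Fin (genusR K F)) : ch.cF i ∈ d.Ov := ch.Fr.comb_mem_Ov (ch.c i)

theorem cF_mem_U (i : Fin (genusR K F)) : ch.cF i ∈ ch.U := by
  rw [← ch.spanK_eq_U]
  exact ch.Fr.comb_mem_spanK _

theorem cF_mem_ball (i : Fin (genusR K F)) : ch.cF i ∈ d.ball ch.U :=
  ⟨ch.cF_mem_U i, ch.cF_mem_Ov i⟩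

theorem res_cF (i : Fin (genusR K F)) : d.res ⟨ch.cF i, ch.cF_mem_Ov i⟩ = ch.cB i :=
  ch.Fr.res_comb (ch.c i)

theorem e_mem_U (j : Fin ch.N) : ch.Fr.e j ∈ ch.U := by
  rw [← ch.spanK_eq_U]
  exact Submodule.subset_span ⟨j, rfl⟩

theorem e_mem_ball (j : Fin ch.N) : ch.Fr.e j ∈ d.ball ch.U := ⟨ch.e_mem_U j, ch.Fr.mem j⟩

include hx in
theorem finiteDimensional_U : FiniteDimensional K ↥ch.U :=
  CurveP.finiteDimensional_riemannRochSpace hx _

include hx in
theorem finiteDimensional_W (v : V) : FiniteDimensional K ↥(ch.W v) :=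
  CurveP.finiteDimensional_riemannRochSpace hx _

include hx in
/-- the size of the frame -/
theorem N_eq : (ch.N : ℤ) = ch.n + 1 - genusR K F := by
  have h1 : Module.finrank K ↥ch.Fr.spanK = ch.N := ch.Fr.finrank_spanK
  have h2 : (ell ch.B : ℤ) = Divisor.degree ch.B + 1 - genusR K F :=
    alpk_ell_eq hx (by rw [ch.hBdeg]; have := ch.hn'; omega)
  rw [ch.hBdeg] at h2
  rw [← h2, ← h1, ch.hFr]
  rfl

include hx in
/-- the dimension of `W v` -/
theorem finrank_W (v : V) : Module.finrank K ↥(ch.W v) + genusR K F = ch.N := by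
  have h2 : (ell (ch.B - ch.D v) : ℤ) =
      Divisor.degree (ch.B - ch.D v) + 1 - genusR K F :=
    alpk_ell_eq hx (by rw [ch.degree_sub]; have := ch.hn'; omega)
  rw [ch.degree_sub] at h2
  have h3 := ch.N_eq hx
  have h4 : (Module.finrank K ↥(ch.W v) : ℤ) = (ell (ch.B - ch.D v) : ℤ) := rfl
  omega

include hx in
/-- the dimension of `W̄₀` -/
theorem finrank_Wb [Nonempty V] : Module.finrank k ↥ch.Wb + genusR K F = ch.N := by
  obtain ⟨v⟩ := ‹Nonempty V›
  haveI := ch.finiteDimensional_W hx v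
  rw [← ch.resBall_W v, d.finrank_resBall (ch.W v)]
  exact ch.finrank_W hx v

include hx in
/-- existence of the chart coordinates -/
theorem exists_m (v : V) (j : Fin ch.N) :
    ∃ a : Fin (genusR K F) → ↥d.A,
      ch.Fr.e j - ∑ i, ((a i : ↥d.A) : K) • ch.cF i ∈ ch.W v := by
  haveI := ch.finiteDimensional_U hx
  have hsup : d.resBall ch.U ≤ d.resBall (ch.W v) ⊔
      Submodule.span k (Set.range fun i => d.res ⟨ch.cF i, (ch.cF_mem_ball i).2⟩) := by
    rw [ch.resBall_U, ch.resBall_W v]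
    have h1 : (fun i => d.res ⟨ch.cF i, (ch.cF_mem_ball i).2⟩) =
        fun i => ch.Fr.combB (fun s => d.resA (ch.c i s)) := funext fun i => ch.res_cF i
    rw [h1]
    exact ch.hG2b
  obtain ⟨a, ha⟩ := s33r_ball_decomp d ch.U (ch.W v) (ch.W_le_U v) ch.cF ch.cF_mem_ball hsup
    (ch.e_mem_ball j)
  exact ⟨a, ha.1⟩

/-- **the chart functions** -/
noncomputable def m (j : Fin ch.N) (i : Fin (genusR K F)) (v : V) : K :=
  ((Classical.choose (ch.exists_m hx v j) i : ↥d.A) : K)

theorem m_mem (j : Fin ch.N) (i : Fin (genusR K F)) (v : V) : ch.m hx j i v ∈ d.A :=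
  (Classical.choose (ch.exists_m hx v j) i).2

/-- the chart functions, with values in `A` -/
noncomputable def mA (j : Fin ch.N) (i : Fin (genusR K F)) (v : V) : ↥d.A :=
  ⟨ch.m hx j i v, ch.m_mem hx j i v⟩

@[simp] theorem coe_mA (j : Fin ch.N) (i : Fin (genusR K F)) (v : V) :
    ((ch.mA hx j i v : ↥d.A) : K) = ch.m hx j i v := rfl

/-- the defining property of the chart functions -/
theorem m_spec (v : V) (j : Fin ch.N) :
    ch.Fr.e j - ∑ i, ch.m hx j i v • ch.cF i ∈ ch.W v :=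
  Classical.choose_spec (ch.exists_m hx v j)

/-- the `cF i` are linearly independent modulo `W v` -/
theorem cF_indep (v : V) (a : Fin (genusR K F) → K) (h : ∑ i, a i • ch.cF i ∈ ch.W v) : a = 0 := by
  refine s33r_indep_mod d (ch.W v) ch.cF ch.cF_mem_Ov (fun γ hγ => ?_) a h
  apply ch.hG2a γ
  rw [ch.resBall_W v] at hγ
  have h1 : ∑ i, γ i • d.res ⟨ch.cF i, ch.cF_mem_Ov i⟩ =
      ∑ i, γ i • ch.Fr.combB (fun s => d.resA (ch.c i s)) :=
    Finset.sum_congr rfl fun i _ => by rw [ch.res_cF i]; rfl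
  rw [← h1]
  exact hγ

/-- the `cB i` are linearly independent modulo `W̄₀` -/
theorem cB_indep (γ : Fin (genusR K F) → k) (h : ∑ i, γ i • ch.cB i ∈ ch.Wb) : γ = 0 :=
  ch.hG2a γ h

/-- uniqueness of the chart coordinates -/
theorem m_unique (v : V) (j : Fin ch.N) (a : Fin (genusR K F) → K)
    (h : ch.Fr.e j - ∑ i, a i • ch.cF i ∈ ch.W v) : ∀ i, a i = ch.m hx j i v := by
  have h1 := (ch.W v).sub_mem (ch.m_spec hx v j) h
  have h2 : (ch.Fr.e j - ∑ i, ch.m hx j i v • ch.cF i) - (ch.Fr.e j - ∑ i, a i • ch.cF i) =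
      ∑ i, (fun i => a i - ch.m hx j i v) i • ch.cF i := by
    simp only [sub_smul, Finset.sum_sub_distrib]
    abel
  rw [h2] at h1
  have h3 := ch.cF_indep v _ h1
  intro i
  exact sub_eq_zero.mp (congrFun h3 i)

/-- the vectors `w_j = e_j - ∑ m_ji cF_i` -/
noncomputable def w (v : V) (j : Fin ch.N) : F := ch.Fr.e j - ∑ i, ch.m hx j i v • ch.cF i

theorem w_mem (v : V) (j : Fin ch.N) : ch.w hx v j ∈ ch.W v := ch.m_spec hx v j

/-- the residues `w̄_j = ē_j - ∑ m̄_ji c̄_i` -/
noncomputable def wb (v : V) (j : Fin ch.N) : Fb :=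
  ch.Fr.eb j - ∑ i, d.resA (ch.mA hx j i v) • ch.cB i

theorem w_mem_Ov (v : V) (j : Fin ch.N) : ch.w hx v j ∈ d.Ov := by
  refine d.Ov.sub_mem (ch.Fr.mem j) (d.Ov.sum_mem fun i _ => ?_)
  exact d.smul_mem (ch.mA hx j i v) (ch.cF_mem_Ov i)

theorem res_w (v : V) (j : Fin ch.N) :
    d.res ⟨ch.w hx v j, ch.w_mem_Ov hx v j⟩ = ch.wb hx v j := by
  obtain ⟨hmem, hres⟩ := s33r_res_sum d ch.cF ch.cF_mem_Ov (fun i => ch.mA hx j i v)
  have h1 : d.res ⟨ch.w hx v j, ch.w_mem_Ov hx v j⟩ =
      d.res ⟨ch.Fr.e j, ch.Fr.mem j⟩ -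
        d.res ⟨∑ i, ((ch.mA hx j i v : ↥d.A) : K) • ch.cF i, hmem⟩ :=
    d.res_sub' (ch.Fr.mem j) hmem
  rw [h1, hres, wb]
  congr 1
  exact Finset.sum_congr rfl fun i _ => by rw [ch.res_cF i]

/-- the reduced chart relation -/
theorem wb_mem (v : V) (j : Fin ch.N) : ch.wb hx v j ∈ ch.Wb := by
  rw [← ch.resBall_W v, ← ch.res_w hx v j]
  exact ⟨ch.w hx v j, ⟨ch.w_mem hx v j, ch.w_mem_Ov hx v j⟩, rfl⟩

/-- the vectors `w_j` span `W v` -/
theorem span_w (v : V) : Submodule.span K (Set.range (ch.w hx v)) = ch.W v := by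
  apply le_antisymm
  · rw [Submodule.span_le]
    rintro _ ⟨j, rfl⟩
    exact ch.w_mem hx v j
  · intro f hf
    have hfU : f ∈ ch.Fr.spanK := by rw [ch.spanK_eq_U]; exact ch.W_le_U v hf
    obtain ⟨a, rfl⟩ := ch.Fr.mem_spanK_iff.mp hfU
    have hsum : ∑ j, a j • ch.w hx v j ∈ Submodule.span K (Set.range (ch.w hx v)) :=
      Submodule.sum_mem _ fun j _ => Submodule.smul_mem _ _ (Submodule.subset_span ⟨j, rfl⟩)
    have hdec : ch.Fr.comb a = ∑ j, a j • ch.w hx v j +
        ∑ i, (fun i => ∑ j, a j * ch.m hx j i v) i • ch.cF i := by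
      simp only [S33xFrame.comb, w, smul_sub, Finset.sum_sub_distrib, Finset.smul_sum,
        Finset.sum_smul, smul_smul]
      rw [Finset.sum_comm (f := fun i j => (a j * ch.m hx j i v) • ch.cF i)]
      abel
    have h1 : ∑ i, (fun i => ∑ j, a j * ch.m hx j i v) i • ch.cF i ∈ ch.W v := by
      have h2 : ∑ i, (fun i => ∑ j, a j * ch.m hx j i v) i • ch.cF i =
          ch.Fr.comb a - ∑ j, a j • ch.w hx v j := by rw [hdec]; abel
      rw [h2]
      exact (ch.W v).sub_mem hf
        ((ch.W v).sum_mem fun j _ => (ch.W v).smul_mem _ (ch.w_mem hx v j))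
    have h3 := ch.cF_indep v _ h1
    rw [hdec, h3]
    simpa using hsum

/-- the vectors `w̄_j` span `W̄₀` -/
theorem span_wb (v : V) : Submodule.span k (Set.range (ch.wb hx v)) = ch.Wb := by
  apply le_antisymm
  · rw [Submodule.span_le]
    rintro _ ⟨j, rfl⟩
    exact ch.wb_mem hx v j
  · intro f hf
    have hfU : f ∈ ch.Fr.spanB := ch.Wb_le_spanB hf
    obtain ⟨a, rfl⟩ := ch.Fr.mem_spanB_iff.mp hfU
    have hsum : ∑ j, a j • ch.wb hx v j ∈ Submodule.span k (Set.range (ch.wb hx v)) :=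
      Submodule.sum_mem _ fun j _ => Submodule.smul_mem _ _ (Submodule.subset_span ⟨j, rfl⟩)
    have hdec : ch.Fr.combB a = ∑ j, a j • ch.wb hx v j +
        ∑ i, (fun i => ∑ j, a j * d.resA (ch.mA hx j i v)) i • ch.cB i := by
      simp only [S33xFrame.combB, wb, smul_sub, Finset.sum_sub_distrib, Finset.smul_sum,
        Finset.sum_smul, smul_smul]
      rw [Finset.sum_comm (f := fun i j => (a j * d.resA (ch.mA hx j i v)) • ch.cB i)]
      abel
    have h1 : ∑ i, (fun i => ∑ j, a j * d.resA (ch.mA hx j i v)) i • ch.cB i ∈ ch.Wb := by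
      have h2 : ∑ i, (fun i => ∑ j, a j * d.resA (ch.mA hx j i v)) i • ch.cB i =
          ch.Fr.combB a - ∑ j, a j • ch.wb hx v j := by rw [hdec]; abel
      rw [h2]
      exact ch.Wb.sub_mem hf
        (ch.Wb.sum_mem fun j _ => ch.Wb.smul_mem _ (ch.wb_mem hx v j))
    have h3 := ch.cB_indep _ h1
    rw [hdec, h3]
    simpa using hsum

/-- the chart functions separate the points -/
theorem m_sep (v v' : V) (h : ∀ j i, ch.m hx j i v = ch.m hx j i v') : v = v' := by
  have hw : ch.w hx v = ch.w hx v' := by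
    funext j
    simp only [w, h]
  have hW : ch.W v = ch.W v' := by rw [← ch.span_w hx v, ← ch.span_w hx v', hw]
  apply ch.hDinj
  have hdeg : ∀ u : V, 2 * (genusR K F : ℤ) ≤ Divisor.degree (ch.B - ch.D u) := by
    intro u
    rw [ch.degree_sub]
    have := ch.hn'
    omega
  exact alpk_determined hx (hdeg v) (hdeg v') hW

/-- **connectedness**: the chart functions are constant modulo the maximal ideal -/
theorem m_conn (v v' : V) (j : Fin ch.N) (i : Fin (genusR K F)) :
    d.resA (ch.mA hx j i v) = d.resA (ch.mA hx j i v') := by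
  have h1 := ch.wb_mem hx v j
  have h2 := ch.wb_mem hx v' j
  have h3 := ch.Wb.sub_mem h2 h1
  have h4 : ch.wb hx v' j - ch.wb hx v j =
      ∑ i, (fun i => d.resA (ch.mA hx j i v) - d.resA (ch.mA hx j i v')) i • ch.cB i := by
    simp only [wb, sub_smul, Finset.sum_sub_distrib]
    abel
  rw [h4] at h3
  have h5 := ch.cB_indep _ h3
  exact sub_eq_zero.mp (congrFun h5 i)

end S33xChart

end Fermat.Agent.S33
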