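/-
GAMMA-KEY-ABS (helper8), part 1: the abstract chain over a closed fibre which is only a commutative
ring — step "Hom-kernel".

This is `Lib/Alpha/Key/Theta.lean` with the specialisation target `E` a commutative `L`-algebra
(in the application `E = κ_∞ × κ_0`, the total ring of fractions of a two-component nodal curve)
instead of a field.  Division by a product section `P p0 ≠ 0` is replaced by multiplication with
the inverse of a unit `P p0`.

`S33kSp D L E` : a specialisation of the chain data `D : AlpxChainData T` (ring hom `ψ : T →+* L`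
to a field, independent families `ε1 ε2 ε4` in the commutative `L`-algebra `E`, multiplying
according to the structure constants).
-/
import Fermat.Agent.Lib.Alpha.Key.Theta

set_option autoImplicit false
set_option linter.style.haveILetI false
set_option linter.unusedSectionVars false

namespace Fermat.Agent.S33

open Matrix Fermat.Agent.Alpha

/-- a specialisation of the chain data, with values in a commutative ring -/
structure S33kSp {T : Type*} [CommRing T] (D : AlpxChainData T) (L E : Type*) [Field L]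
    [CommRing E] [Algebra L E] where
  /-- the point -/
  ψ : T →+* L
  /-- frame of the first lattice -/
  ε1 : Fin D.N1 → E
  /-- frame of the second lattice -/
  ε2 : Fin D.N2 → E
  /-- frame of the third lattice -/
  ε4 : Fin D.N4 → E
  ind1 : LinearIndependent L ε1
  ind2 : LinearIndependent L ε2
  ind4 : LinearIndependent L ε4
  mul1 : ∀ i j, ε1 i * ε1 j = ∑ p, ψ (D.γ₁ i j p) • ε2 p
  mul2 : ∀ i j, ε2 i * ε2 j = ∑ p, ψ (D.γ₂ i j p) • ε4 p
  indβ' : LinearIndependent L fun q => alpxEv ψ ε2 (D.β' q)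

/-- a specialisation with values in a field is a specialisation in the present sense -/
def s33kOfSp {T : Type*} [CommRing T] {D : AlpxChainData T} {L E : Type*} [Field L] [Field E]
    [Algebra L E] (S : AlpxSp D L E) : S33kSp D L E where
  ψ := S.ψ
  ε1 := S.ε1
  ε2 := S.ε2
  ε4 := S.ε4
  ind1 := S.ind1
  ind2 := S.ind2
  ind4 := S.ind4
  mul1 := S.mul1
  mul2 := S.mul2
  indβ' := S.indβ'

namespace S33kSp

variable {T : Type*} [CommRing T] {D : AlpxChainData T} {L E : Type*} [Field L] [CommRing E]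
  [Algebra L E] (S : S33kSp D L E)

/-- value of a section of the first lattice -/
def ev1 (t : Fin D.N1 → T) : E := alpxEv S.ψ S.ε1 t

/-- value of a section of the second lattice -/
def ev2 (t : Fin D.N2 → T) : E := alpxEv S.ψ S.ε2 t

/-- value of a section of the third lattice -/
def ev4 (t : Fin D.N4 → T) : E := alpxEv S.ψ S.ε4 t

/-- the products -/
def P (p : D.G) : E := S.ev1 (D.w p.1) * S.ev1 (D.w' p.2)

theorem ev2_Ps (p : D.G) : S.ev2 (D.Ps p) = S.P p :=
  alpxEv_mulT D.γ₁ S.ψ S.ε1 S.ε1 S.ε2 S.mul1 _ _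

theorem ev4_C (p : D.G) (q : Fin D.b2) : S.ev4 (D.C p q) = S.P p * S.ev2 (D.β' q) := by
  rw [← S.ev2_Ps]
  exact alpxEv_mulT D.γ₂ S.ψ S.ε2 S.ε2 S.ε4 S.mul2 _ _

/-- the target space of the Hom-kernel -/
def BE : Submodule L E := Submodule.span L (Set.range fun q => S.ev2 (D.β' q))

/-- **the Hom-kernel space** -/
def HK : Submodule L E where
  carrier := {h | ∀ p, h * S.P p ∈ S.BE}
  add_mem' {a b} ha hb p := by
    rw [add_mul]
    exact S.BE.add_mem (ha p) (hb p)
  zero_mem' p := by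
    rw [zero_mul]
    exact S.BE.zero_mem
  smul_mem' l a ha p := by
    rw [smul_mul_assoc]
    exact S.BE.smul_mem l (ha p)

theorem mem_HK {h : E} : h ∈ S.HK ↔ ∀ p, h * S.P p ∈ S.BE := Iff.rfl

/-- the element of `BE` with coordinates `v (p, ·)` -/
def I (v : D.G × Fin D.b2 → L) (p : D.G) : E :=
  alpxComb (fun q => S.ev2 (D.β' q)) fun q => v (p, q)

theorem I_mem (v : D.G × Fin D.b2 → L) (p : D.G) : S.I v p ∈ S.BE := alpxComb_mem_span _ _

theorem I_smul (l : L) (v : D.G × Fin D.b2 → L) (p : D.G) : S.I (l • v) p = l • S.I v p := by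
  have := (alpxCombL (L := L) fun q => S.ev2 (D.β' q)).map_smul l fun q => v (p, q)
  exact this

theorem I_zero (p : D.G) : S.I 0 p = 0 := by
  have := (alpxCombL (L := L) fun q => S.ev2 (D.β' q)).map_zero
  exact this

theorem I_injective {v v' : D.G × Fin D.b2 → L} (h : ∀ p, S.I v p = S.I v' p) : v = v' := by
  funext ⟨p, q⟩
  have := alpxComb_injective _ S.indβ' (h p)
  exact congrFun this q

theorem exists_I_eq {f : E} (hf : f ∈ S.BE) : ∃ a : Fin D.b2 → L,
    alpxComb (fun q => S.ev2 (D.β' q)) a = f := by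
  obtain ⟨a, ha⟩ := (alpx_mem_span_iff (L := L) _).mp hf
  exact ⟨a, ha.symm⟩

/-- the value of a block of `Blk` -/
theorem comb_blk {R : Type*} [Fintype R] (a b : R → D.G) (v : D.G × Fin D.b2 → L) (r : R) :
    alpxComb S.ε4 (fun s => ((D.Blk a b).map S.ψ).mulVec v (r, s)) =
      S.P (b r) * S.I v (a r) := by
  have h1 : ∀ s, ((D.Blk a b).map S.ψ).mulVec v (r, s) =
      ∑ q, S.ψ (D.C (b r) q s) * v (a r, q) := by
    intro s
    simp only [Matrix.mulVec, dotProduct, Matrix.map_apply, AlpxChainData.Blk]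
    rw [Fintype.sum_prod_type, Finset.sum_eq_single (a r)]
    · simp
    · intro p _ hp
      simp [hp]
    · intro h; exact absurd (Finset.mem_univ _) h
  simp only [h1]
  rw [I, alpxComb, alpxComb, Finset.mul_sum]
  simp only [Finset.sum_smul]
  rw [Finset.sum_comm]
  refine Finset.sum_congr rfl fun q _ => ?_
  rw [mul_smul_comm, ← S.ev4_C, ev4, alpxEv, Finset.smul_sum]
  refine Finset.sum_congr rfl fun s _ => ?_
  rw [smul_smul, mul_comm]

/-- the value of a block of `Theta` -/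
theorem comb_theta (v : D.G × Fin D.b2 → L) (p p' : D.G) :
    alpxComb S.ε4 (fun s => (D.Theta.map S.ψ).mulVec v ((p, p'), s)) =
      S.P p * S.I v p' - S.P p' * S.I v p := by
  have h := S.comb_blk (R := D.G × D.G) Prod.snd Prod.fst v (p, p')
  have h' := S.comb_blk (R := D.G × D.G) Prod.fst Prod.snd v (p, p')
  rw [← h, ← h']
  have : ∀ s, (D.Theta.map S.ψ).mulVec v ((p, p'), s) =
      ((D.Blk Prod.snd Prod.fst).map S.ψ).mulVec v ((p, p'), s) -
        ((D.Blk Prod.fst Prod.snd).map S.ψ).mulVec v ((p, p'), s) := by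
    intro s
    rw [AlpxChainData.Theta, Matrix.map_sub (f := S.ψ) (map_sub S.ψ), Matrix.sub_mulVec]
    rfl
  simp only [this]
  simp only [alpxComb, sub_smul, Finset.sum_sub_distrib]

/-- **the kernel of `Theta` in a specialisation** -/
theorem theta_mulVec_eq_zero_iff (v : D.G × Fin D.b2 → L) :
    (D.Theta.map S.ψ).mulVec v = 0 ↔ ∀ p p', S.P p * S.I v p' = S.P p' * S.I v p := by
  constructor
  · intro h p p'
    have := S.comb_theta v p p'
    rw [h] at this
    rw [← sub_eq_zero, ← this]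
    simp [alpxComb]
  · intro h
    funext ⟨⟨p, p'⟩, s⟩
    have h1 := S.comb_theta v p p'
    rw [h p p', sub_self] at h1
    have h2 := (alpxComb_eq_zero_iff S.ε4 S.ind4 _).mp h1
    exact congrFun h2 s

theorem mem_ker_theta_iff (v : D.G × Fin D.b2 → L) :
    v ∈ LinearMap.ker (D.Theta.map S.ψ).mulVecLin ↔
      ∀ p p', S.P p * S.I v p' = S.P p' * S.I v p := by
  rw [LinearMap.mem_ker, Matrix.mulVecLin_apply]
  exact S.theta_mulVec_eq_zero_iff v

/-- the quotient `I v p0 / P p0` for a unit `P p0` -/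
noncomputable def dv (v : D.G × Fin D.b2 → L) {p0 : D.G} (hp0 : IsUnit (S.P p0)) : E :=
  S.I v p0 * ((hp0.unit⁻¹ : Eˣ) : E)

theorem dv_mul_P (v : D.G × Fin D.b2 → L) {p0 : D.G} (hp0 : IsUnit (S.P p0)) :
    S.dv v hp0 * S.P p0 = S.I v p0 := by
  rw [dv, mul_assoc]
  have : ((hp0.unit⁻¹ : Eˣ) : E) * S.P p0 = 1 := hp0.val_inv_mul
  rw [this, mul_one]

theorem dv_smul (l : L) (v : D.G × Fin D.b2 → L) {p0 : D.G} (hp0 : IsUnit (S.P p0)) :
    S.dv (l • v) hp0 = l • S.dv v hp0 := by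
  rw [dv, dv, S.I_smul, smul_mul_assoc]

/-- cancellation of a unit product -/
theorem eq_of_mul_P_eq {a b : E} {p0 : D.G} (hp0 : IsUnit (S.P p0))
    (h : a * S.P p0 = b * S.P p0) : a = b := hp0.mul_left_injective h

/-- on the kernel, `I v p = h * P p` with `h = I v p0 / P p0` -/
theorem I_eq_of_mem_ker {v : D.G × Fin D.b2 → L}
    (hv : v ∈ LinearMap.ker (D.Theta.map S.ψ).mulVecLin) {p0 : D.G} (hp0 : IsUnit (S.P p0))
    (p : D.G) : S.I v p = S.dv v hp0 * S.P p := by
  have h := (S.mem_ker_theta_iff v).mp hv p0 p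
  apply S.eq_of_mul_P_eq hp0
  have e : S.dv v hp0 * S.P p * S.P p0 = (S.dv v hp0 * S.P p0) * S.P p := by ring
  rw [e, S.dv_mul_P, mul_comm (S.I v p), h, mul_comm]

/-- kernel vectors give elements of the Hom-kernel space -/
theorem dv_mem_HK {v : D.G × Fin D.b2 → L}
    (hv : v ∈ LinearMap.ker (D.Theta.map S.ψ).mulVecLin) {p0 : D.G} (hp0 : IsUnit (S.P p0)) :
    S.dv v hp0 ∈ S.HK := fun p => by
  rw [← S.I_eq_of_mem_ker hv hp0 p]
  exact S.I_mem v p

/-- nonzero kernel vectors give nonzero elements -/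
theorem dv_ne_zero {v : D.G × Fin D.b2 → L}
    (hv : v ∈ LinearMap.ker (D.Theta.map S.ψ).mulVecLin) (hv0 : v ≠ 0) {p0 : D.G}
    (hp0 : IsUnit (S.P p0)) : S.dv v hp0 ≠ 0 := by
  intro h0
  apply hv0
  apply S.I_injective
  intro p
  rw [S.I_eq_of_mem_ker hv hp0 p, h0, zero_mul, S.I_zero]

/-- elements of the Hom-kernel space give kernel vectors -/
theorem exists_mem_ker {h : E} (hh : h ∈ S.HK) :
    ∃ v ∈ LinearMap.ker (D.Theta.map S.ψ).mulVecLin, ∀ p, S.I v p = h * S.P p := by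
  have h1 : ∀ p, ∃ a : Fin D.b2 → L, alpxComb (fun q => S.ev2 (D.β' q)) a = h * S.P p :=
    fun p => S.exists_I_eq (hh p)
  choose a ha using h1
  refine ⟨fun c => a c.1 c.2, ?_, ha⟩
  rw [S.mem_ker_theta_iff]
  intro p p'
  have e1 : S.I (fun c => a c.1 c.2) p = h * S.P p := ha p
  have e2 : S.I (fun c => a c.1 c.2) p' = h * S.P p' := ha p'
  rw [e1, e2]
  ring

/-- lower bound for the kernel -/
theorem one_le_finrank_ker {h : E} (hh : h ∈ S.HK) (h0 : h ≠ 0) {p0 : D.G}
    (hp0 : IsUnit (S.P p0)) :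
    1 ≤ Module.finrank L (LinearMap.ker (D.Theta.map S.ψ).mulVecLin) := by
  obtain ⟨v, hv, hvI⟩ := S.exists_mem_ker hh
  have hv0 : v ≠ 0 := by
    rintro rfl
    have := hvI p0
    rw [S.I_zero] at this
    exact h0 ((hp0.mul_left_eq_zero).mp this.symm)
  rw [Nat.succ_le_iff, Module.finrank_pos_iff_exists_ne_zero]
  exact ⟨⟨v, hv⟩, fun h => hv0 (congrArg Subtype.val h)⟩

/-- proportionality on the kernel -/
theorem eq_smul_of_HK_eq {v v0 : D.G × Fin D.b2 → L}
    (hv : v ∈ LinearMap.ker (D.Theta.map S.ψ).mulVecLin)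
    (hv0 : v0 ∈ LinearMap.ker (D.Theta.map S.ψ).mulVecLin) {p0 : D.G} (hp0 : IsUnit (S.P p0))
    (l : L) (h : S.dv v hp0 = l • S.dv v0 hp0) : v = l • v0 := by
  apply S.I_injective
  intro p
  rw [S.I_smul, S.I_eq_of_mem_ker hv hp0 p, S.I_eq_of_mem_ker hv0 hp0 p, h, smul_mul_assoc]

/-- upper bound for the kernel -/
theorem finrank_ker_le_one (hU : ∀ h1 ∈ S.HK, ∀ h2 ∈ S.HK, h1 ≠ 0 → ∃ l : L, h2 = l • h1)
    {p0 : D.G} (hp0 : IsUnit (S.P p0)) :
    Module.finrank L (LinearMap.ker (D.Theta.map S.ψ).mulVecLin) ≤ 1 := by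
  by_cases hbot : ∀ v ∈ LinearMap.ker (D.Theta.map S.ψ).mulVecLin, v = 0
  · have : LinearMap.ker (D.Theta.map S.ψ).mulVecLin = ⊥ := by
      rw [eq_bot_iff]
      intro v hv
      rw [Submodule.mem_bot]
      exact hbot v hv
    rw [this, finrank_bot]
    exact Nat.zero_le _
  · push Not at hbot
    obtain ⟨v0, hv0, hv0ne⟩ := hbot
    apply finrank_le_one (⟨v0, hv0⟩ : LinearMap.ker (D.Theta.map S.ψ).mulVecLin)
    rintro ⟨v, hv⟩
    obtain ⟨l, hl⟩ := hU _ (S.dv_mem_HK hv0 hp0) _ (S.dv_mem_HK hv hp0)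
      (S.dv_ne_zero hv0 hv0ne hp0)
    refine ⟨l, ?_⟩
    apply Subtype.ext
    exact (S.eq_smul_of_HK_eq hv hv0 hp0 l hl).symm

/-- if the kernel is a line, the Hom-kernel space is a line -/
theorem HK_eq_smul_of_finrank_ker
    (h1 : Module.finrank L (LinearMap.ker (D.Theta.map S.ψ).mulVecLin) = 1)
    {v0 : D.G × Fin D.b2 → L} (hv0 : v0 ∈ LinearMap.ker (D.Theta.map S.ψ).mulVecLin)
    (hv0ne : v0 ≠ 0) {p0 : D.G} (hp0 : IsUnit (S.P p0)) {h : E} (hh : h ∈ S.HK) :
    ∃ l : L, h = l • S.dv v0 hp0 := by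
  obtain ⟨v, hv, hvI⟩ := S.exists_mem_ker hh
  have hne : (⟨v0, hv0⟩ : LinearMap.ker (D.Theta.map S.ψ).mulVecLin) ≠ 0 := fun h =>
    hv0ne (congrArg Subtype.val h)
  obtain ⟨l, hl⟩ := (finrank_eq_one_iff_of_nonzero' _ hne).mp h1 ⟨v, hv⟩
  have hl' : v = l • v0 := (congrArg Subtype.val hl).symm
  refine ⟨l, ?_⟩
  have e1 := hvI p0
  rw [hl', S.I_smul] at e1
  apply S.eq_of_mul_P_eq hp0
  rw [← e1, smul_mul_assoc, S.dv_mul_P]

end S33kSp

end Fermat.Agent.S33
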