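/-
GAMMA-KEY-ABS (helper8), part 2: the abstract chain over a commutative-ring closed fibre — steps
"image" and "colon" (`Lib/Alpha/Key/Image.lean` with `[CommRing E]`; nonvanishing hypotheses are
replaced by unit hypotheses).
-/
import Fermat.Agent.Lib.S33.Key.ThetaR
import Fermat.Agent.Lib.Alpha.Key.Image

set_option autoImplicit false
set_option linter.style.haveILetI false
set_option linter.unusedSectionVars false

namespace Fermat.Agent.S33

open Matrix Fermat.Agent.Alpha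

namespace S33kSp

variable {T : Type*} [CommRing T] {D : AlpxChainData T} {L E : Type*} [Field L] [CommRing E]
  [Algebra L E] (S : S33kSp D L E)

theorem ev2_Is (φ : D.G × Fin D.b2 → T) (p : D.G) :
    S.ev2 (D.Is φ p) = S.I (fun c => S.ψ (φ c)) p := by
  rw [ev2, AlpxChainData.Is, alpxEv_sum, I, alpxComb]
  exact Finset.sum_congr rfl fun q _ => alpxEv_smul S.ψ S.ε2 _ _

/-- the span of the products -/
def SP : Submodule L E := Submodule.span L (Set.range S.P)

/-- the span of the products, multiplied by `h` -/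
def SPh (h : E) : Submodule L E := Submodule.span L (Set.range fun p => h * S.P p)

theorem SPh_eq_map (h : E) : S.SPh h = S.SP.map (LinearMap.mulLeft L h) := by
  rw [SPh, SP, Submodule.map_span, ← Set.range_comp]
  rfl

theorem finrank_SPh {h : E} (h0 : IsUnit h) :
    Module.finrank L ↥(S.SPh h) = Module.finrank L ↥S.SP := by
  rw [SPh_eq_map]
  have hinj : Function.Injective (LinearMap.mulLeft L h) := fun a b hab =>
    h0.mul_right_injective hab
  exact (LinearEquiv.finrank_eq (Submodule.equivMapOfInjective _ hinj _)).symm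

theorem SPh_smul {l : L} (hl : l ≠ 0) (h : E) : S.SPh (l • h) = S.SPh h := by
  apply le_antisymm
  · rw [SPh, Submodule.span_le]
    rintro _ ⟨p, rfl⟩
    simp only [smul_mul_assoc]
    exact Submodule.smul_mem _ _ (Submodule.subset_span ⟨p, rfl⟩)
  · rw [SPh, Submodule.span_le]
    rintro _ ⟨p, rfl⟩
    have : h * S.P p = l⁻¹ • ((l • h) * S.P p) := by
      rw [smul_mul_assoc, smul_smul, inv_mul_cancel₀ hl, one_smul]
    simp only [this]
    exact Submodule.smul_mem _ _ (Submodule.subset_span ⟨p, rfl⟩)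

/-- the values of the columns of `MD φ` -/
theorem span_MD {φ : D.G × Fin D.b2 → T}
    (hφ : (fun c => S.ψ (φ c)) ∈ LinearMap.ker (D.Theta.map S.ψ).mulVecLin) {p0 : D.G}
    (hp0 : IsUnit (S.P p0)) :
    Submodule.span L (Set.range fun p => alpxEv S.ψ S.ε2 ((D.MD φ).col p)) =
      S.SPh (S.dv (fun c => S.ψ (φ c)) hp0) := by
  rw [SPh]
  congr 1
  apply congrArg
  funext p
  rw [AlpxChainData.MD_col, ← S.I_eq_of_mem_ker hφ hp0 p]
  exact S.ev2_Is φ p

/-- **the rank of `MD φ` in a specialisation** -/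
theorem rank_MD {φ : D.G × Fin D.b2 → T}
    (hφ : (fun c => S.ψ (φ c)) ∈ LinearMap.ker (D.Theta.map S.ψ).mulVecLin) {p0 : D.G}
    (hp0 : IsUnit (S.P p0)) (hu : IsUnit (S.dv (fun c => S.ψ (φ c)) hp0)) :
    ((D.MD φ).map S.ψ).rank = Module.finrank L ↥S.SP := by
  rw [alpx_rank_map S.ψ S.ε2 S.ind2, S.span_MD hφ hp0, S.finrank_SPh hu]

/-- **the colon space** -/
def W3 (h : E) : Submodule L E where
  carrier := {u | u ∈ Submodule.span L (Set.range S.ε1) ∧ ∀ t, u * S.ev1 (D.β t) ∈ S.SPh h}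
  add_mem' {a b} ha hb := ⟨Submodule.add_mem _ ha.1 hb.1, fun t => by
    rw [add_mul]
    exact Submodule.add_mem _ (ha.2 t) (hb.2 t)⟩
  zero_mem' := ⟨Submodule.zero_mem _, fun t => by
    rw [zero_mul]
    exact Submodule.zero_mem _⟩
  smul_mem' l a ha := ⟨Submodule.smul_mem _ l ha.1, fun t => by
    rw [smul_mul_assoc]
    exact Submodule.smul_mem _ l (ha.2 t)⟩

theorem mem_W3 {h u : E} : u ∈ S.W3 h ↔
    u ∈ Submodule.span L (Set.range S.ε1) ∧ ∀ t, u * S.ev1 (D.β t) ∈ S.SPh h := Iff.rfl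

theorem W3_smul {l : L} (hl : l ≠ 0) (h : E) : S.W3 (l • h) = S.W3 h := by
  ext u
  rw [mem_W3, mem_W3, S.SPh_smul hl]

/-- **the kernel of `Xi` in a specialisation** -/
theorem xi_mulVec_eq_zero_iff (R : Matrix (Fin D.N2) (Fin D.N2) T) {φ : D.G × Fin D.b2 → T}
    (hR : ∀ x : Fin D.N2 → L, x ∈ LinearMap.range ((D.MD φ).map S.ψ).mulVecLin ↔
      (R.map S.ψ).mulVec x = x)
    (hφ : (fun c => S.ψ (φ c)) ∈ LinearMap.ker (D.Theta.map S.ψ).mulVecLin) {p0 : D.G}
    (hp0 : IsUnit (S.P p0)) (a : Fin D.N1 → L) :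
    ((D.Xi R).map S.ψ).mulVec a = 0 ↔
      alpxComb S.ε1 a ∈ S.W3 (S.dv (fun c => S.ψ (φ c)) hp0) := by
  have hx : ∀ t s, ((D.Xi R).map S.ψ).mulVec a (t, s) =
      (((alpxMulMatR D.γ₁ (D.β t)).map S.ψ).mulVec a) s -
        (R.map S.ψ).mulVec (((alpxMulMatR D.γ₁ (D.β t)).map S.ψ).mulVec a) s := by
    intro t s
    have h1 : ((D.Xi R).map S.ψ).mulVec a (t, s) =
        ((((1 - R) * alpxMulMatR D.γ₁ (D.β t)).map S.ψ).mulVec a) s := rfl
    rw [h1, Matrix.map_mul, Matrix.map_sub (f := S.ψ) (map_sub S.ψ),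
      Matrix.map_one _ (map_zero S.ψ) (map_one S.ψ), ← Matrix.mulVec_mulVec, Matrix.sub_mulVec,
      Matrix.one_mulVec]
    rfl
  have hmem : ∀ t, ((R.map S.ψ).mulVec (((alpxMulMatR D.γ₁ (D.β t)).map S.ψ).mulVec a) =
      ((alpxMulMatR D.γ₁ (D.β t)).map S.ψ).mulVec a) ↔
      alpxComb S.ε1 a * S.ev1 (D.β t) ∈ S.SPh (S.dv (fun c => S.ψ (φ c)) hp0) := by
    intro t
    rw [← hR, alpx_mem_range_map_iff S.ψ S.ε2 S.ind2, S.span_MD hφ hp0,
      alpxComb_map_mulMatR D.γ₁ S.ψ S.ε1 S.ε1 S.ε2 S.mul1]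
    rfl
  constructor
  · intro h0
    refine ⟨alpxComb_mem_span _ _, fun t => (hmem t).mp ?_⟩
    funext s
    have := congrFun h0 (t, s)
    rw [hx t s, Pi.zero_apply, sub_eq_zero] at this
    exact this.symm
  · intro hW
    funext ⟨t, s⟩
    rw [hx t s, Pi.zero_apply, sub_eq_zero]
    exact (congrFun ((hmem t).mpr (hW.2 t)) s).symm

/-- **the dimension of the kernel of `Xi` in a specialisation** -/
theorem finrank_ker_xi (R : Matrix (Fin D.N2) (Fin D.N2) T) {φ : D.G × Fin D.b2 → T}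
    (hR : ∀ x : Fin D.N2 → L, x ∈ LinearMap.range ((D.MD φ).map S.ψ).mulVecLin ↔
      (R.map S.ψ).mulVec x = x)
    (hφ : (fun c => S.ψ (φ c)) ∈ LinearMap.ker (D.Theta.map S.ψ).mulVecLin) {p0 : D.G}
    (hp0 : IsUnit (S.P p0)) :
    Module.finrank L (LinearMap.ker ((D.Xi R).map S.ψ).mulVecLin) =
      Module.finrank L ↥(S.W3 (S.dv (fun c => S.ψ (φ c)) hp0)) := by
  have hinj : Function.Injective (alpxCombL (L := L) S.ε1) := alpxComb_injective S.ε1 S.ind1
  have hmap : (LinearMap.ker ((D.Xi R).map S.ψ).mulVecLin).map (alpxCombL S.ε1) =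
      S.W3 (S.dv (fun c => S.ψ (φ c)) hp0) := by
    ext u
    constructor
    · rintro ⟨a, ha, rfl⟩
      rw [SetLike.mem_coe, LinearMap.mem_ker, Matrix.mulVecLin_apply] at ha
      exact (S.xi_mulVec_eq_zero_iff R hR hφ hp0 a).mp ha
    · intro hu
      obtain ⟨a, rfl⟩ := (alpx_mem_span_iff (L := L) S.ε1).mp hu.1
      refine ⟨a, ?_, rfl⟩
      rw [SetLike.mem_coe, LinearMap.mem_ker, Matrix.mulVecLin_apply]
      exact (S.xi_mulVec_eq_zero_iff R hR hφ hp0 a).mpr hu
  rw [← hmap]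
  exact LinearEquiv.finrank_eq (Submodule.equivMapOfInjective _ hinj _)

end S33kSp

end Fermat.Agent.S33
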