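/-
GAMMA-KEY-ABS (helper8), part 3: **the abstract chain over a commutative-ring closed fibre**,
`s33k_chain`.

Same statement as `Fermat.Agent.Alpha.alpx_chain` (`Lib/Alpha/Key/Chain.lean`), but the closed
specialisation `S0` takes values in a nontrivial commutative `k`-algebra `Fb` (in the application
`Fb = κ_∞ × κ_0`), the generic specialisations `Sz z` still in a field `F`.  The hypotheses
"`S0.P p ≠ 0`" and "the Hom-kernel space of the closed fibre is a line" are strengthened to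
"`S0.P p` is a unit" and "… is a line consisting of `0` and units".
-/
import Fermat.Agent.Lib.S33.Key.ImageR
import Fermat.Agent.Lib.Alpha.Key.Chain

set_option autoImplicit false
set_option linter.style.haveILetI false
set_option linter.unusedSectionVars false

namespace Fermat.Agent.S33

open Matrix Fermat.Agent.Alpha

namespace S33kSp

variable {T : Type*} [CommRing T] {D : AlpxChainData T} {L E : Type*} [Field L] [CommRing E]
  [Algebra L E] (S : S33kSp D L E)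

theorem ev1_eq_comb (t : Fin D.N1 → T) : S.ev1 t = alpxComb S.ε1 fun s => S.ψ (t s) := rfl

/-- all nonzero elements of the Hom-kernel space have the same colon space -/
theorem W3_eq_of_HK (h1 : Module.finrank L (LinearMap.ker (D.Theta.map S.ψ).mulVecLin) = 1)
    {φ : D.G × Fin D.b2 → T}
    (hφ : (fun c => S.ψ (φ c)) ∈ LinearMap.ker (D.Theta.map S.ψ).mulVecLin)
    (hφ0 : (fun c => S.ψ (φ c)) ≠ 0) {p0 : D.G} (hp0 : IsUnit (S.P p0)) {h : E} (hh : h ∈ S.HK)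
    (h0 : h ≠ 0) : S.W3 h = S.W3 (S.dv (fun c => S.ψ (φ c)) hp0) := by
  obtain ⟨l, rfl⟩ := S.HK_eq_smul_of_finrank_ker h1 hφ hφ0 hp0 hh
  have hl : l ≠ 0 := by
    rintro rfl
    exact h0 (zero_smul _ _)
  exact S.W3_smul hl _

/-- a product which is nonzero at a local specialisation is nonzero everywhere -/
theorem P_ne_zero_of_local {L' E' : Type*} [Field L'] [CommRing E'] [Algebra L' E']
    (S0 : S33kSp D L' E') (hρ : ∀ b : T, S0.ψ b ≠ 0 → IsUnit b) {p0 : D.G} (hp0 : S0.P p0 ≠ 0) :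
    S.P p0 ≠ 0 := by
  have h1 : ∃ s, S0.ψ (D.Ps p0 s) ≠ 0 := by
    by_contra hcon
    push Not at hcon
    apply hp0
    rw [← S0.ev2_Ps, ev2, alpxEv]
    exact Finset.sum_eq_zero fun s _ => by rw [hcon s, zero_smul]
  obtain ⟨s, hs⟩ := h1
  have hu : IsUnit (D.Ps p0 s) := hρ _ hs
  intro h0
  rw [← S.ev2_Ps, ev2, alpxEv_eq_comb, alpxComb_eq_zero_iff S.ε2 S.ind2] at h0
  exact (hu.map S.ψ).ne_zero (congrFun h0 s)

end S33kSp

/-- **The abstract chain, closed fibre a commutative ring.** -/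
theorem s33k_chain {T : Type*} [CommRing T] (D : AlpxChainData T)
    {K F k Fb : Type*} [Field K] [Field F] [Algebra K F] [Field k] [CommRing Fb] [Nontrivial Fb]
    [Algebra k Fb]
    {c : Type*} [Nonempty c] (Sz : c → S33kSp D K F) (S0 : S33kSp D k Fb)
    (hinj : ∀ b : T, (∀ z, (Sz z).ψ b = 0) → b = 0)
    (hρ : ∀ b : T, S0.ψ b ≠ 0 → IsUnit b)
    (a : ℕ)
    (hne0 : ∃ p, IsUnit (S0.P p))
    (hCgen : ∀ z, ∃ h ∈ (Sz z).HK, h ≠ 0 ∧ D.N1 - D.g ≤ Module.finrank K ↥((Sz z).W3 h))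
    (hCcl : ∀ h1 ∈ S0.HK, ∀ h2 ∈ S0.HK, h1 ≠ 0 → ∃ l : k, h2 = l • h1)
    (hCu : ∀ h ∈ S0.HK, h ≠ 0 → IsUnit h)
    (hDgen : ∀ z, Module.finrank K ↥(Sz z).SP ≤ a)
    (hDcl : a ≤ Module.finrank k ↥S0.SP)
    (hEcl : ∀ h ∈ S0.HK, h ≠ 0 → Module.finrank k ↥(S0.W3 h) ≤ D.N1 - D.g ∧
        Submodule.span k (Set.range S0.ε1) ≤
          S0.W3 h ⊔ Submodule.span k (Set.range fun i => S0.ev1 (D.cc i)))
    (v : Fin D.N1 → T) :
    ∃ ν : Fin D.g → T, ∀ z, ∀ h ∈ (Sz z).HK, h ≠ 0 →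
      (Sz z).ev1 v - ∑ i, (Sz z).ψ (ν i) • (Sz z).ev1 (D.cc i) ∈ (Sz z).W3 h := by
  classical
  obtain ⟨p0, hp0⟩ := hne0
  have hp0ne : S0.P p0 ≠ 0 := hp0.ne_zero
  have hpz : ∀ z, IsUnit ((Sz z).P p0) := fun z =>
    IsUnit.mk0 _ ((Sz z).P_ne_zero_of_local S0 hρ hp0ne)
  -- step C: the Hom-kernel matrix is regular of corank one
  have hzC : ∀ z, 1 ≤ Module.finrank K (LinearMap.ker (D.Theta.map (Sz z).ψ).mulVecLin) := by
    intro z
    obtain ⟨h, hh, h0, -⟩ := hCgen z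
    exact (Sz z).one_le_finrank_ker hh h0 (hpz z)
  have hresC : Module.finrank k (LinearMap.ker (D.Theta.map S0.ψ).mulVecLin) ≤ 1 :=
    S0.finrank_ker_le_one hCcl hp0
  obtain ⟨rows, cols, hRA⟩ := alpc_regular_of_finrank_ker (fun z => (Sz z).ψ) hinj S0.ψ hρ
    D.Theta hzC hresC
  have hcard : 1 ≤ Fintype.card (D.G × Fin D.b2) := by
    obtain ⟨z⟩ := ‹Nonempty c›
    have h1 := hzC z
    have h2 := Submodule.finrank_le (LinearMap.ker (D.Theta.map (Sz z).ψ).mulVecLin)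
    rw [Module.finrank_pi] at h2
    omega
  have hker1 : ∀ z, Module.finrank K (LinearMap.ker (D.Theta.map (Sz z).ψ).mulVecLin) = 1 := by
    intro z
    have h1 := alpc_rank_map_eq ⟨rows, cols, hRA⟩ (Sz z).ψ
    have h2 := alpc_rank_add_finrank_ker (D.Theta.map (Sz z).ψ)
    omega
  obtain ⟨j₀, hj₀⟩ : ∃ j₀, j₀ ∉ Set.range cols := by
    by_contra hcon
    push Not at hcon
    have hsurj : Function.Surjective cols := hcon
    have := Fintype.card_le_of_surjective cols hsurj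
    rw [Fintype.card_fin] at this
    omega
  set φ := alpcKerGen D.Theta rows cols j₀ with hφdef
  have hφker : φ ∈ LinearMap.ker D.Theta.mulVecLin := alpc_kerGen_mem hRA j₀
  have hφz : ∀ z, (fun c => (Sz z).ψ (φ c)) ∈
      LinearMap.ker (D.Theta.map (Sz z).ψ).mulVecLin := fun z =>
    alpc_comp_mem_ker (Sz z).ψ hφker
  have hφ0 : (fun c => S0.ψ (φ c)) ∈ LinearMap.ker (D.Theta.map S0.ψ).mulVecLin :=
    alpc_comp_mem_ker S0.ψ hφker
  have hφzne : ∀ z, (fun c => (Sz z).ψ (φ c)) ≠ 0 := fun z =>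
    alpc_kerGen_map_ne_zero (Sz z).ψ hj₀
  have hφ0ne : (fun c => S0.ψ (φ c)) ≠ 0 := alpc_kerGen_map_ne_zero S0.ψ hj₀
  have hdvz : ∀ z, IsUnit ((Sz z).dv (fun c => (Sz z).ψ (φ c)) (hpz z)) := fun z =>
    IsUnit.mk0 _ ((Sz z).dv_ne_zero (hφz z) (hφzne z) (hpz z))
  have hdv0m : S0.dv (fun c => S0.ψ (φ c)) hp0 ∈ S0.HK := S0.dv_mem_HK hφ0 hp0
  have hdv0ne : S0.dv (fun c => S0.ψ (φ c)) hp0 ≠ 0 := S0.dv_ne_zero hφ0 hφ0ne hp0
  have hdv0 : IsUnit (S0.dv (fun c => S0.ψ (φ c)) hp0) := hCu _ hdv0m hdv0ne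
  -- step D: the image matrix is regular of rank `a`
  have hzD : ∀ z, ((D.MD φ).map (Sz z).ψ).rank ≤ a := by
    intro z
    rw [(Sz z).rank_MD (hφz z) (hpz z) (hdvz z)]
    exact hDgen z
  have hresD : a ≤ ((D.MD φ).map S0.ψ).rank := by
    rw [S0.rank_MD hφ0 hp0 hdv0]
    exact hDcl
  obtain ⟨rows', cols', hRD⟩ := alpc_regular_of_rank' (fun z => (Sz z).ψ) hinj S0.ψ hρ
    (D.MD φ) hzD hresD
  set R := alpcRangeProj (D.MD φ) rows' cols' with hRdef
  have hRz : ∀ z (x : Fin D.N2 → K),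
      x ∈ LinearMap.range ((D.MD φ).map (Sz z).ψ).mulVecLin ↔ (R.map (Sz z).ψ).mulVec x = x :=
    fun z x => alpx_mem_range_map_iff' hRD (Sz z).ψ x
  have hR0 : ∀ x : Fin D.N2 → k,
      x ∈ LinearMap.range ((D.MD φ).map S0.ψ).mulVecLin ↔ (R.map S0.ψ).mulVec x = x :=
    fun x => alpx_mem_range_map_iff' hRD S0.ψ x
  -- step E: the colon matrix is regular
  have hzE : ∀ z, D.N1 - D.g ≤
      Module.finrank K (LinearMap.ker ((D.Xi R).map (Sz z).ψ).mulVecLin) := by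
    intro z
    rw [(Sz z).finrank_ker_xi R (hRz z) (hφz z) (hpz z)]
    obtain ⟨h, hh, h0, hle⟩ := hCgen z
    rw [(Sz z).W3_eq_of_HK (hker1 z) (hφz z) (hφzne z) (hpz z) hh h0] at hle
    exact hle
  have hresE : Module.finrank k (LinearMap.ker ((D.Xi R).map S0.ψ).mulVecLin) ≤ D.N1 - D.g := by
    rw [S0.finrank_ker_xi R hR0 hφ0 hp0]
    exact (hEcl _ hdv0m hdv0ne).1
  obtain ⟨rows'', cols'', hRE⟩ := alpc_regular_of_finrank_ker (fun z => (Sz z).ψ) hinj S0.ψ hρ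
    (D.Xi R) hzE hresE
  -- Nakayama
  have htop : Submodule.span k ((fun v : Fin D.N1 → T => S0.ψ ∘ v) ''
      (LinearMap.ker (D.Xi R).mulVecLin : Set (Fin D.N1 → T))) ⊔
      Submodule.span k (Set.range fun i => S0.ψ ∘ D.cc i) = ⊤ := by
    rw [← alpc_ker_map S0.ψ hRE, eq_top_iff]
    intro a₀ _
    have h1 : alpxComb S0.ε1 a₀ ∈ Submodule.span k (Set.range S0.ε1) := alpxComb_mem_span _ _
    have h2 := (hEcl _ hdv0m hdv0ne).2 h1
    obtain ⟨u, hu, y, hy, huy⟩ := Submodule.mem_sup.mp h2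
    obtain ⟨a', rfl⟩ := (alpx_mem_span_iff (L := k) S0.ε1).mp hu.1
    obtain ⟨l, hl⟩ := (Submodule.mem_span_range_iff_exists_fun k).mp hy
    have ha' : a' ∈ LinearMap.ker ((D.Xi R).map S0.ψ).mulVecLin := by
      rw [LinearMap.mem_ker, Matrix.mulVecLin_apply]
      exact (S0.xi_mulVec_eq_zero_iff R hR0 hφ0 hp0 a').mpr hu
    have hy' : y = alpxComb S0.ε1 (∑ i, l i • (S0.ψ ∘ D.cc i)) := by
      rw [← hl, ← alpxCombL_apply, map_sum]
      refine Finset.sum_congr rfl fun i _ => ?_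
      rw [map_smul]
      rfl
    have ha₀ : a₀ = a' + ∑ i, l i • (S0.ψ ∘ D.cc i) := by
      apply alpxComb_injective S0.ε1 S0.ind1
      rw [← huy, hy', ← alpxCombL_apply, ← alpxCombL_apply, ← alpxCombL_apply, map_add]
    rw [ha₀]
    refine Submodule.add_mem_sup ha' ?_
    exact Submodule.sum_mem _ fun i _ => Submodule.smul_mem _ _ (Submodule.subset_span ⟨i, rfl⟩)
  obtain ⟨p, hp, μ, hv⟩ := alpc_exists_decomp S0.ψ hρ (LinearMap.ker (D.Xi R).mulVecLin) D.cc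
    htop v
  refine ⟨μ, fun z h hh h0 => ?_⟩
  rw [(Sz z).W3_eq_of_HK (hker1 z) (hφz z) (hφzne z) (hpz z) hh h0]
  have hpz' : (fun s => (Sz z).ψ (p s)) ∈ LinearMap.ker ((D.Xi R).map (Sz z).ψ).mulVecLin :=
    alpc_comp_mem_ker (Sz z).ψ hp
  rw [LinearMap.mem_ker, Matrix.mulVecLin_apply] at hpz'
  have hW := ((Sz z).xi_mulVec_eq_zero_iff R (hRz z) (hφz z) (hpz z) _).mp hpz'
  have hev : (Sz z).ev1 v - ∑ i, (Sz z).ψ (μ i) • (Sz z).ev1 (D.cc i) =
      alpxComb (Sz z).ε1 fun s => (Sz z).ψ (p s) := by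
    rw [hv]
    simp only [S33kSp.ev1, alpxEv_add, alpxEv_sum, alpxEv_smul]
    rw [add_sub_cancel_right]
    rfl
  rw [hev]
  exact hW

end Fermat.Agent.S33
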