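/-
GAMMA-KEY (helper8): auxiliary data of a one-cluster chart (frames of `L(2B)`, `L(4B)`, structure
constants, orthonormal bases of `L(B - E0)` and `L(2B - E0)` in coordinates).  Port of
`Lib/Alpha/Key/AuxData.lean` to `T2Base` and a general base divisor.
-/
import Fermat.Agent.Lib.S33.Key.ChartN

set_option autoImplicit false
set_option linter.style.haveILetI false
set_option linter.unusedSectionVars false

namespace Fermat.Agent.S33

open AlgebraicCurve IntermediateField Fermat.Agent.Curve Fermat.Agent.CurveP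
  Fermat.Agent.Curve.PlaceAux Fermat.Agent.T2 RRAux Fermat.Agent.Alpha

variable {K F k Fb : Type*} [Field K] [Field F] [Algebra K F] [Field k] [CommRing Fb] [Algebra k Fb]
variable [IsAlgClosed K]
variable {d : T2Base K F k Fb} {V : Type*} [AddCommGroup V]

/-- auxiliary data of a one-cluster chart -/
structure S33xAux (ch : S33xChart d V) where
  /-- rank of `L(2B)` -/
  N2 : ℕ
  /-- rank of `L(4B)` -/
  N4 : ℕ
  /-- frame of `L(2B)` -/
  Fr2 : S33xFrame d N2
  /-- frame of `L(4B)` -/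
  Fr4 : S33xFrame d N4
  hFr2 : Fr2.spanK = riemannRochSpace (ch.B + ch.B)
  /-- structure constants -/
  μ1 : S33xMul ch.Fr ch.Fr Fr2
  /-- structure constants -/
  μ2 : S33xMul Fr2 Fr2 Fr4
  /-- dimension of `L(B - E0)` -/
  b1 : ℕ
  /-- dimension of `L(2B - E0)` -/
  b2 : ℕ
  /-- orthonormal basis of `L(B - E0)`, in coordinates -/
  β : Fin b1 → Fin ch.N → ↥d.A
  /-- orthonormal basis of `L(2B - E0)`, in coordinates -/
  β' : Fin b2 → Fin N2 → ↥d.A
  hβ : Submodule.span K (Set.range fun t => ch.Fr.comb fun s => ((β t s : ↥d.A) : K)) =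
    riemannRochSpace (ch.B - ch.E0)
  hβb : Submodule.span k (Set.range fun t => ch.Fr.combB fun s => d.resA (β t s)) =
    d.resBall (riemannRochSpace (ch.B - ch.E0))
  hβ'ind : LinearIndependent K (fun q => Fr2.comb fun s => ((β' q s : ↥d.A) : K))
  hβ' : Submodule.span K (Set.range fun q => Fr2.comb fun s => ((β' q s : ↥d.A) : K)) =
    riemannRochSpace (ch.B + ch.B - ch.E0)
  hβ'bind : LinearIndependent k (fun q => Fr2.combB fun s => d.resA (β' q s))
  hβ'b : Submodule.span k (Set.range fun q => Fr2.combB fun s => d.resA (β' q s)) =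
    d.resBall (riemannRochSpace (ch.B + ch.B - ch.E0))

variable {x : F} (hx : IsFunctionFieldGen K F x)
  [Algebra.IsSeparable (IntermediateField.adjoin K {x}) F]

include hx in
/-- the auxiliary data exist -/
theorem S33xChart.exists_aux (ch : S33xChart d V) : Nonempty (S33xAux ch) := by
  haveI : FiniteDimensional K ↥(riemannRochSpace (ch.B + ch.B)) :=
    CurveP.finiteDimensional_riemannRochSpace hx _
  haveI : FiniteDimensional K ↥(riemannRochSpace (ch.B + ch.B + (ch.B + ch.B))) :=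
    CurveP.finiteDimensional_riemannRochSpace hx _
  obtain ⟨Fr2, hFr2⟩ := s33x_exists_frame (d := d) (riemannRochSpace (ch.B + ch.B))
  obtain ⟨Fr4, hFr4⟩ := s33x_exists_frame (d := d)
    (riemannRochSpace (ch.B + ch.B + (ch.B + ch.B)))
  have h1 : ∀ i j, ch.Fr.e i * ch.Fr.e j ∈ Fr2.spanK := by
    intro i j
    rw [hFr2]
    exact mul_mem_riemannRochSpace (ch.e_mem_U i) (ch.e_mem_U j)
  have h2 : ∀ i j, Fr2.e i * Fr2.e j ∈ Fr4.spanK := by
    intro i j
    have hi : Fr2.e i ∈ riemannRochSpace (ch.B + ch.B) :=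
      hFr2.le (Submodule.subset_span ⟨i, rfl⟩)
    have hj : Fr2.e j ∈ riemannRochSpace (ch.B + ch.B) :=
      hFr2.le (Submodule.subset_span ⟨j, rfl⟩)
    rw [hFr4]
    exact mul_mem_riemannRochSpace hi hj
  obtain ⟨μ1⟩ := S33xMul.exists ch.Fr ch.Fr Fr2 h1
  obtain ⟨μ2⟩ := S33xMul.exists Fr2 Fr2 Fr4 h2
  have hle1 : riemannRochSpace (ch.B - ch.E0) ≤ ch.Fr.spanK := by
    rw [ch.hFr]
    exact riemannRochSpace_mono (sub_le_self _ ch.hE0)
  have hle2 : riemannRochSpace (ch.B + ch.B - ch.E0) ≤ Fr2.spanK := by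
    rw [hFr2]
    exact riemannRochSpace_mono (sub_le_self _ ch.hE0)
  obtain ⟨β, -, hβ, -, hβb⟩ := s33x_exists_subframe ch.Fr _ hle1
  obtain ⟨β', hβ'ind, hβ', hβ'bind, hβ'b⟩ := s33x_exists_subframe Fr2 _ hle2
  exact ⟨⟨_, _, Fr2, Fr4, hFr2, μ1, μ2, _, _, β, β', hβ, hβb, hβ'ind, hβ', hβ'bind, hβ'b⟩⟩

end Fermat.Agent.S33
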