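/-
GAMMA-KEY (helper8): **assembly of the one-cluster KEY lemma over a two-valuation base**.

From a one-cluster chart `ch : S33xChart d V`, a cluster algebra `T` containing the chart
functions of the two factors (`S33xClData`) and the auxiliary data `ax : S33xAux ch`, build the
abstract chain data and the specialisations (generic: values in the function field `F`; closed:
values in the commutative ring `Fb`), verify the fibre hypotheses of `s33k_chain` with helper3's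
`s33d_fibre` (generic) and `s33d_fibre_closed` (closed, from the `hK*` fields of the chart), and
conclude that `(x, y) ↦ m_ji (x + y)` lies in `T`.

Port of `Lib/Alpha/Key/Assemble.lean` to `T2Base`.
-/
import Fermat.Agent.Lib.S33.Key.AuxN
import Fermat.Agent.Lib.S33.Div.Fibre
import Fermat.Agent.Lib.Alpha.CRank.Valued

set_option autoImplicit false
set_option linter.style.haveILetI false
set_option linter.unusedSectionVars false

namespace Fermat.Agent.S33

open AlgebraicCurve IntermediateField Fermat.Agent.Curve Fermat.Agent.CurveP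
  Fermat.Agent.Curve.PlaceAux Fermat.Agent.T2 RRAux Fermat.Agent.Alpha

variable {K F k Fb : Type*} [Field K] [Field F] [Algebra K F] [Field k] [CommRing Fb] [Algebra k Fb]
variable [IsAlgClosed K]
variable {d : T2Base K F k Fb} {V : Type*} [AddCommGroup V]
variable {c : Type*} [Fintype c] [DecidableEq c]
variable {x : F} (hx : IsFunctionFieldGen K F x)
  [Algebra.IsSeparable (IntermediateField.adjoin K {x}) F]

theorem s33x_ev_single {T L E : Type*} [CommRing T] [Field L] [AddCommGroup E] [Module L E]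
    (ψ : T →+* L) {N : ℕ} (ε : Fin N → E) (j : Fin N) :
    alpxEv ψ ε (Pi.single j 1) = ε j := by
  classical
  rw [alpxEv, Finset.sum_eq_single j]
  · simp
  · intro s _ hs
    simp [Pi.single_eq_of_ne hs]
  · intro h; exact absurd (Finset.mem_univ _) h

/-- products of reductions of unit balls -/
theorem s33x_resBall_mul_le (d : T2Base K F k Fb) {W₁ W₂ W₃ : Submodule K F}
    (h : ∀ a ∈ W₁, ∀ b ∈ W₂, a * b ∈ W₃) : d.resBall W₁ * d.resBall W₂ ≤ d.resBall W₃ := by
  rw [Submodule.mul_le]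
  rintro _ ⟨f, hf, rfl⟩ _ ⟨g, hg, rfl⟩
  exact ⟨f * g, ⟨h f hf.1 g hg.1, d.Ov.mul_mem hf.2 hg.2⟩, d.res_mul' hf.2 hg.2⟩

/-- the chart functions of the two factors, as elements of a cluster algebra -/
structure S33xClData (ch : S33xChart d V) (T : Subalgebra ↥d.A (c → ↥d.A)) where
  /-- the points of the cluster -/
  pt : c → V × V
  /-- the chart functions of the first factor -/
  mx : Fin ch.N → Fin (genusR K F) → ↥T
  /-- the chart functions of the second factor -/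
  my : Fin ch.N → Fin (genusR K F) → ↥T
  hmx : ∀ j i z, (((mx j i : ↥T) : c → ↥d.A) z : K) = ch.m hx j i (pt z).1
  hmy : ∀ j i z, (((my j i : ↥T) : c → ↥d.A) z : K) = ch.m hx j i (pt z).2

namespace S33xAux

variable {ch : S33xChart d V} (ax : S33xAux ch) {T : Subalgebra ↥d.A (c → ↥d.A)}
  (cd : S33xClData hx ch T)

/-- the constant section with coordinates `a` -/
def cst (T : Subalgebra ↥d.A (c → ↥d.A)) {N : ℕ} (a : Fin N → ↥d.A) : Fin N → ↥T := fun s =>
  algebraMap ↥d.A ↥T (a s)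

/-- the chain data of a chart -/
noncomputable def chainData : AlpxChainData ↥T where
  N1 := ch.N
  N2 := ax.N2
  N4 := ax.N4
  γ₁ i j p := algebraMap ↥d.A ↥T (ax.μ1.γ i j p)
  γ₂ i j p := algebraMap ↥d.A ↥T (ax.μ2.γ i j p)
  J := ch.N
  w j := Pi.single j 1 - ∑ i, cd.mx j i • cst T (ch.c i)
  w' j := Pi.single j 1 - ∑ i, cd.my j i • cst T (ch.c i)
  b1 := ax.b1
  b2 := ax.b2
  g := genusR K F
  β t := cst T (ax.β t)
  β' q := cst T (ax.β' q)
  cc i := cst T (ch.c i)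

theorem ev_cst_K {N : ℕ} (Fr : S33xFrame d N) (z : c) (a : Fin N → ↥d.A) :
    alpxEv (s33xEvK T z) Fr.e (cst T a) = Fr.comb fun s => ((a s : ↥d.A) : K) := rfl

theorem ev_cst_k {N : ℕ} (Fr : S33xFrame d N) (z₀ : c) (a : Fin N → ↥d.A) :
    alpxEv (s33xRho T z₀) Fr.eb (cst T a) = Fr.combB fun s => d.resA (a s) := rfl

/-- the specialisation at the point `z` -/
noncomputable def spz (z : c) : S33kSp (ax.chainData hx cd) K F where
  ψ := s33xEvK T z
  ε1 := ch.Fr.e
  ε2 := ax.Fr2.e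
  ε4 := ax.Fr4.e
  ind1 := ch.Fr.linearIndependent
  ind2 := ax.Fr2.linearIndependent
  ind4 := ax.Fr4.linearIndependent
  mul1 i j := by rw [ax.μ1.mul_eq i j]; rfl
  mul2 i j := by rw [ax.μ2.mul_eq i j]; rfl
  indβ' := ax.hβ'ind

/-- the specialisation at the closed point (through `z₀`) -/
noncomputable def sp0 (z₀ : c) : S33kSp (ax.chainData hx cd) k Fb where
  ψ := s33xRho T z₀
  ε1 := ch.Fr.eb
  ε2 := ax.Fr2.eb
  ε4 := ax.Fr4.eb
  ind1 := ch.Fr.eb_indep
  ind2 := ax.Fr2.eb_indep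
  ind4 := ax.Fr4.eb_indep
  mul1 i j := by rw [ax.μ1.mul_eq_res i j]; rfl
  mul2 i j := by rw [ax.μ2.mul_eq_res i j]; rfl
  indβ' := ax.hβ'bind

/-! ### values at the points -/

theorem spz_ev1_w (z : c) (j : Fin ch.N) :
    (ax.spz hx cd z).ev1 ((ax.chainData hx cd).w j) = ch.w hx (cd.pt z).1 j := by
  show alpxEv (s33xEvK T z) ch.Fr.e (Pi.single j 1 - ∑ i, cd.mx j i • cst T (ch.c i)) = _
  rw [alpxEv_sub, s33x_ev_single, alpxEv_sum, S33xChart.w]
  congr 1
  refine Finset.sum_congr rfl fun i _ => ?_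
  rw [alpxEv_smul, ev_cst_K, s33xEvK_apply, cd.hmx]
  rfl

theorem spz_ev1_w' (z : c) (j : Fin ch.N) :
    (ax.spz hx cd z).ev1 ((ax.chainData hx cd).w' j) = ch.w hx (cd.pt z).2 j := by
  show alpxEv (s33xEvK T z) ch.Fr.e (Pi.single j 1 - ∑ i, cd.my j i • cst T (ch.c i)) = _
  rw [alpxEv_sub, s33x_ev_single, alpxEv_sum, S33xChart.w]
  congr 1
  refine Finset.sum_congr rfl fun i _ => ?_
  rw [alpxEv_smul, ev_cst_K, s33xEvK_apply, cd.hmy]
  rfl

theorem mx_apply (z : c) (j : Fin ch.N) (i : Fin (genusR K F)) :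
    ((cd.mx j i : ↥T) : c → ↥d.A) z = ch.mA hx j i (cd.pt z).1 := Subtype.ext (cd.hmx j i z)

theorem my_apply (z : c) (j : Fin ch.N) (i : Fin (genusR K F)) :
    ((cd.my j i : ↥T) : c → ↥d.A) z = ch.mA hx j i (cd.pt z).2 := Subtype.ext (cd.hmy j i z)

theorem sp0_ev1_w (z₀ : c) (j : Fin ch.N) :
    (ax.sp0 hx cd z₀).ev1 ((ax.chainData hx cd).w j) = ch.wb hx (cd.pt z₀).1 j := by
  show alpxEv (s33xRho T z₀) ch.Fr.eb (Pi.single j 1 - ∑ i, cd.mx j i • cst T (ch.c i)) = _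
  rw [alpxEv_sub, s33x_ev_single, alpxEv_sum, S33xChart.wb]
  congr 1
  refine Finset.sum_congr rfl fun i _ => ?_
  rw [alpxEv_smul, ev_cst_k, s33xRho_apply, mx_apply]
  rfl

theorem sp0_ev1_w' (z₀ : c) (j : Fin ch.N) :
    (ax.sp0 hx cd z₀).ev1 ((ax.chainData hx cd).w' j) = ch.wb hx (cd.pt z₀).2 j := by
  show alpxEv (s33xRho T z₀) ch.Fr.eb (Pi.single j 1 - ∑ i, cd.my j i • cst T (ch.c i)) = _
  rw [alpxEv_sub, s33x_ev_single, alpxEv_sum, S33xChart.wb]
  congr 1
  refine Finset.sum_congr rfl fun i _ => ?_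
  rw [alpxEv_smul, ev_cst_k, s33xRho_apply, my_apply]
  rfl

/-! ### the fibres -/

/-- the generic fibres -/
theorem spz_fibre (z : c) :
    ∃ h : F, h ≠ 0 ∧ h ∈ (ax.spz hx cd z).HK ∧
      (∀ h' ∈ (ax.spz hx cd z).HK, ∃ a : K, h' = a • h) ∧
      (Module.finrank K ↥(ax.spz hx cd z).SP : ℤ) = 2 * ch.n - 3 * genusR K F + 1 ∧
      (∀ h' ∈ (ax.spz hx cd z).HK, h' ≠ 0 →
        (ax.spz hx cd z).W3 h' = ch.W ((cd.pt z).1 + (cd.pt z).2)) ∧
      ∃ p, IsUnit ((ax.spz hx cd z).P p) := by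
  obtain ⟨h, hh0, hh⟩ := ch.hadd (cd.pt z).1 (cd.pt z).2
  have hw : Submodule.span K
      (Set.range fun j => (ax.spz hx cd z).ev1 ((ax.chainData hx cd).w j)) =
      riemannRochSpace (ch.B - ch.D (cd.pt z).1) := by
    have : (fun j => (ax.spz hx cd z).ev1 ((ax.chainData hx cd).w j)) = ch.w hx (cd.pt z).1 :=
      funext (ax.spz_ev1_w hx cd z)
    rw [this]
    exact ch.span_w hx _
  have hw' : Submodule.span K
      (Set.range fun j => (ax.spz hx cd z).ev1 ((ax.chainData hx cd).w' j)) =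
      riemannRochSpace (ch.B - ch.D (cd.pt z).2) := by
    have : (fun j => (ax.spz hx cd z).ev1 ((ax.chainData hx cd).w' j)) = ch.w hx (cd.pt z).2 :=
      funext (ax.spz_ev1_w' hx cd z)
    rw [this]
    exact ch.span_w hx _
  have hB : 6 * (genusR K F : ℤ) + 2 ≤ Divisor.degree ch.B := by
    rw [ch.hBdeg]; exact ch.hn'
  obtain ⟨h1, h2, -, h3, h4, h5⟩ := s33d_fibre hx (ax.spz hx cd z) hB (ch.hD _)
    (ch.hDdeg _) (ch.hDdeg _) ch.hE0deg hh0 hh (ch.hell _) ch.hFr hw hw' ax.hβ ax.hβ'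
  refine ⟨h, hh0, h1, h2, ?_, h4, h5⟩
  rw [h3, ch.hBdeg]

/-- the closed fibre -/
theorem sp0_fibre [Nontrivial Fb] (z₀ : c) :
    (Module.finrank k ↥(ax.sp0 hx cd z₀).SP : ℤ) = 2 * ch.n - 3 * genusR K F + 1 ∧
      (∃ p, IsUnit ((ax.sp0 hx cd z₀).P p)) ∧
      (∀ h1 ∈ (ax.sp0 hx cd z₀).HK, ∀ h2 ∈ (ax.sp0 hx cd z₀).HK, h1 ≠ 0 →
        ∃ l : k, h2 = l • h1) ∧
      (∀ h ∈ (ax.sp0 hx cd z₀).HK, h ≠ 0 → IsUnit h) ∧
      (∀ h ∈ (ax.sp0 hx cd z₀).HK, h ≠ 0 → (ax.sp0 hx cd z₀).W3 h = ch.Wb ∧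
        Submodule.span k (Set.range (ax.sp0 hx cd z₀).ε1) ≤
          (ax.sp0 hx cd z₀).W3 h ⊔
            Submodule.span k (Set.range fun i =>
              (ax.sp0 hx cd z₀).ev1 ((ax.chainData hx cd).cc i))) := by
  have hw : Submodule.span k
      (Set.range fun j => (ax.sp0 hx cd z₀).ev1 ((ax.chainData hx cd).w j)) = ch.Wb := by
    have : (fun j => (ax.sp0 hx cd z₀).ev1 ((ax.chainData hx cd).w j)) =
        ch.wb hx (cd.pt z₀).1 := funext (ax.sp0_ev1_w hx cd z₀)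
    rw [this]
    exact ch.span_wb hx _
  have hw' : Submodule.span k
      (Set.range fun j => (ax.sp0 hx cd z₀).ev1 ((ax.chainData hx cd).w' j)) = ch.Wb := by
    have : (fun j => (ax.sp0 hx cd z₀).ev1 ((ax.chainData hx cd).w' j)) =
        ch.wb hx (cd.pt z₀).2 := funext (ax.sp0_ev1_w' hx cd z₀)
    rw [this]
    exact ch.span_wb hx _
  have hmulle : ch.Wb * ch.Wb ≤ d.resBall (riemannRochSpace (ch.B + ch.B - ch.E0 - ch.E0)) := by
    refine s33x_resBall_mul_le d fun a ha b hb => ?_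
    have h1 := mul_mem_riemannRochSpace ha hb
    have h2 : ch.B - ch.E0 + (ch.B - ch.E0) = ch.B + ch.B - ch.E0 - ch.E0 := by abel
    rwa [h2] at h1
  have hXXZ : d.resBall (riemannRochSpace (ch.B + ch.B - ch.E0 - ch.E0)) ≤
      d.resBall (riemannRochSpace (ch.B + ch.B - ch.E0)) :=
    d.resBall_mono (riemannRochSpace_mono (sub_le_self _ ch.hE0))
  obtain ⟨hSP, -, hP, hline, hunit, hW⟩ := s33d_fibre_closed (ax.sp0 hx cd z₀) ch.Wb ch.Fr.spanB
    (d.resBall (riemannRochSpace (ch.B + ch.B - ch.E0)))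
    (d.resBall (riemannRochSpace (ch.B + ch.B - ch.E0 - ch.E0)))
    rfl hw hw' ax.hβb ax.hβ'b (le_antisymm hmulle ch.hKprod) hXXZ
    (fun h hh => by
      obtain ⟨a, ha⟩ := ch.hKhom h hh
      exact ⟨a, by rw [ha, Algebra.algebraMap_eq_smul_one]⟩)
    (fun u hu hub => ch.hKcol u (by
      have h := ch.resBall_U
      rw [S33xChart.U] at h
      rw [h]; exact hu) hub)
    (fun b hb => ch.hKunit b hb) ch.Wb_le_spanB ch.hG2b
  refine ⟨?_, hP, hline, hunit, hW⟩
  rw [hSP]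
  haveI : FiniteDimensional K ↥(riemannRochSpace (ch.B + ch.B - ch.E0 - ch.E0)) :=
    CurveP.finiteDimensional_riemannRochSpace hx _
  rw [d.finrank_resBall]
  have hdeg : Divisor.degree (ch.B + ch.B - ch.E0 - ch.E0) = 2 * ch.n - 2 * genusR K F := by
    rw [map_sub, map_sub, map_add, ch.hBdeg, ch.hE0deg]
    ring
  have hn' := ch.hn'
  have := alpk_ell_eq hx (A := ch.B + ch.B - ch.E0 - ch.E0) (by rw [hdeg]; omega)
  rw [ell, hdeg] at this
  rw [this]
  ring

/-! ### the chain -/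

include ax in
/-- **the chart functions of the sum lie in the cluster algebra** -/
theorem exists_tau [Nontrivial Fb] (hone : S33xOneCluster T) (z₀ : c) (j : Fin ch.N)
    (i : Fin (genusR K F)) :
    ∃ τ : ↥T, ∀ z, (((τ : ↥T) : c → ↥d.A) z : K) = ch.m hx j i ((cd.pt z).1 + (cd.pt z).2) := by
  haveI : Nonempty c := ⟨z₀⟩
  haveI : Nonempty V := ⟨0⟩
  obtain ⟨hbSP, hbP, hbline, hbunit, hbW⟩ := ax.sp0_fibre hx cd z₀
  have hN : ∀ v : V, Module.finrank K ↥(ch.W v) = ch.N - genusR K F := fun v => by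
    have := ch.finrank_W hx v; omega
  have hNb : Module.finrank k ↥ch.Wb = ch.N - genusR K F := by
    have := ch.finrank_Wb hx; omega
  obtain ⟨ν, hν⟩ := s33k_chain (ax.chainData hx cd) (ax.spz hx cd) (ax.sp0 hx cd z₀)
    (s33xEvK_jointly_injective T) (fun b hb => hone.isUnit z₀ b hb)
    (Module.finrank k ↥(ax.sp0 hx cd z₀).SP) hbP
    (fun z => by
      obtain ⟨h, h0, hHK, -, -, hW, -⟩ := ax.spz_fibre hx cd z
      refine ⟨h, hHK, h0, ?_⟩
      rw [hW h hHK h0, hN]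
      exact le_rfl)
    hbline hbunit
    (fun z => by
      obtain ⟨h, h0, hHK, -, hSP, -, -⟩ := ax.spz_fibre hx cd z
      have : (Module.finrank K ↥(ax.spz hx cd z).SP : ℤ) =
          (Module.finrank k ↥(ax.sp0 hx cd z₀).SP : ℤ) := by rw [hSP, hbSP]
      exact le_of_eq (by exact_mod_cast this))
    le_rfl
    (fun h hh h0 => by
      obtain ⟨h1, h2⟩ := hbW h hh h0
      refine ⟨?_, h2⟩
      rw [h1]
      exact le_of_eq hNb)
    (Pi.single j 1)
  refine ⟨ν i, fun z => ?_⟩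
  obtain ⟨h, h0, hHK, -, -, hW, -⟩ := ax.spz_fibre hx cd z
  have h1 := hν z h hHK h0
  rw [hW h hHK h0] at h1
  have h2 : (ax.spz hx cd z).ev1 (Pi.single j 1) = ch.Fr.e j := s33x_ev_single _ _ j
  rw [h2] at h1
  exact ch.m_unique hx _ j (fun i' => (ax.spz hx cd z).ψ (ν i')) h1 i

end S33xAux

/-- **THE ONE-CLUSTER KEY LEMMA over a two-valuation base**: the chart functions of `x + y` lie in
the `A`-algebra generated by the chart functions of `x` and of `y`. -/
theorem s33x_key [Nontrivial Fb] (ch : S33xChart d V) [Finite V] (j : Fin ch.N)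
    (i : Fin (genusR K F)) :
    (fun p : V × V => ch.m hx j i (p.1 + p.2)) ∈ Algebra.adjoin ↥d.A
      (Set.range (Sum.elim
        (fun (ji : Fin ch.N × Fin (genusR K F)) (p : V × V) => ch.m hx ji.1 ji.2 p.1)
        (fun (ji : Fin ch.N × Fin (genusR K F)) (p : V × V) => ch.m hx ji.1 ji.2 p.2))) := by
  classical
  haveI : Fintype V := Fintype.ofFinite V
  obtain ⟨ax⟩ := ch.exists_aux hx
  set gens : (Fin ch.N × Fin (genusR K F)) ⊕ (Fin ch.N × Fin (genusR K F)) → V × V → K :=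
    Sum.elim (fun (ji : Fin ch.N × Fin (genusR K F)) (p : V × V) => ch.m hx ji.1 ji.2 p.1)
      (fun (ji : Fin ch.N × Fin (genusR K F)) (p : V × V) => ch.m hx ji.1 ji.2 p.2) with hgens
  have hm : ∀ i z, gens i z ∈ d.A := by
    rintro (⟨j, i⟩ | ⟨j, i⟩) z
    · exact ch.m_mem hx j i z.1
    · exact ch.m_mem hx j i z.2
  apply alpc_mem_adjoin_of_local d.A gens hm
  intro z0
  haveI : Fintype (AlpcCl d.A gens z0) := Fintype.ofFinite _
  let cd : S33xClData hx ch (alpcT d.A gens hm z0) :=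
    { pt := fun z => z.1
      mx := fun j i => ⟨fun z => alpcGen d.A gens hm (Sum.inl (j, i)) z.1,
        alpc_gen_mem_T d.A gens hm z0 (Sum.inl (j, i))⟩
      my := fun j i => ⟨fun z => alpcGen d.A gens hm (Sum.inr (j, i)) z.1,
        alpc_gen_mem_T d.A gens hm z0 (Sum.inr (j, i))⟩
      hmx := fun j i z => rfl
      hmy := fun j i z => rfl }
  obtain ⟨τ, hτ⟩ := ax.exists_tau hx cd (alpc_T_single d.A gens hm z0)
    ⟨z0, alpcSame_refl d.A gens z0⟩ j i
  exact ⟨τ.1, τ.2, fun z => hτ z⟩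

end Fermat.Agent.S33
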