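/-
GAMMA-KEY (helper8): **END of the one-cluster KEY over a two-valuation base**: equivariance of the
chart functions and the connected function model.

* `s33x_m_smul` : a semilinear automorphism `g` of `F / K` fixing the base divisor, the frame and the
  complement coordinates of a chart, with `g • D v = D w`, maps `m j i v` to `m j i w`
  (port of helper4's `alpm_m_smul`).
* `s33x_fam` : over `K = ℚ̄` with `d.A = 𝔓.P` and an action `act` of `G_ℚ` on `V` compatible (on
  inertia) with semilinear automorphisms fixing the chart data, the chart functions form an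
  ALPHA-type family `S33cFam 𝔓 act m` (helper1's `Lib/S33/Conn/Family.lean`).
* `s33x_exists_model` : hence a function model `M : FFModel 𝔓 V act` all of whose points are
  connected (`M.OrdGT y 0`) — the input of `s33c_F3_of_model`.
-/
import Fermat.Agent.Lib.S33.Key.AssembleN
import Fermat.Agent.Lib.S33.Conn.Family
import Fermat.Agent.Lib.Alpha.Mod.Comul
import Fermat.Agent.Lib.TW.Kum.UnitsK0
import Fermat.Prelude.Def_AlgebraicCurve_BaseChangeGalois

set_option autoImplicit false
set_option linter.style.haveILetI false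
set_option linter.unusedSectionVars false

namespace Fermat.Agent.S33

open AlgebraicCurve IntermediateField Fermat.Agent.Curve Fermat.Agent.CurveP
  Fermat.Agent.Curve.PlaceAux Fermat.Agent.T2 RRAux Fermat.Agent.Alpha

section General

variable {K F : Type*} [Field K] [Field F] [Algebra K F]

/-- semilinearity of the action on functions -/
theorem s33x_smul_smul (g : SemilinearAut K F) (a : K) (f : F) :
    g • (a • f) = SemilinearAut.baseAut g a • (g • f) := by
  rw [Algebra.smul_def, Algebra.smul_def, smul_mul', SemilinearAut.smul_algebraMap]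

/-- a semilinear automorphism maps `L(D)` into `L(g • D)` -/
theorem s33x_smul_mem_rr (g : SemilinearAut K F) {D : Divisor K F} {f : F}
    (hf : f ∈ riemannRochSpace D) : g • f ∈ riemannRochSpace (g • D) := by
  rw [mem_riemannRochSpace_iff] at hf ⊢
  intro w
  rcases hf (g⁻¹ • w) with h0 | h1
  · left
    rw [h0, smul_zero]
  · right
    have h2 := SemilinearAut.ord_smul g (g⁻¹ • w) f
    rw [smul_inv_smul] at h2
    rw [h2, SemilinearAut.divisor_smul_apply]
    exact h1

end General

section Equiv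

variable {K F k Fb : Type*} [Field K] [Field F] [Algebra K F] [Field k] [CommRing Fb] [Algebra k Fb]
variable [IsAlgClosed K]
variable {d : T2Base K F k Fb} {V : Type*} [AddCommGroup V]
variable {x : F} (hx : IsFunctionFieldGen K F x)
  [Algebra.IsSeparable (IntermediateField.adjoin K {x}) F]

/-- `g` fixes the complement functions -/
theorem s33x_smul_cF (ch : S33xChart d V) (g : SemilinearAut K F)
    (he : ∀ j, g • ch.Fr.e j = ch.Fr.e j)
    (hc : ∀ i s, SemilinearAut.baseAut g ((ch.c i s : ↥d.A) : K) = ((ch.c i s : ↥d.A) : K))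
    (i : Fin (genusR K F)) : g • ch.cF i = ch.cF i := by
  rw [S33xChart.cF, S33xFrame.comb, Finset.smul_sum]
  refine Finset.sum_congr rfl fun s _ => ?_
  rw [s33x_smul_smul, he s, hc i s]

/-- **equivariance of the chart functions** -/
theorem s33x_m_smul (ch : S33xChart d V) (g : SemilinearAut K F) (hB : g • ch.B = ch.B)
    (he : ∀ j, g • ch.Fr.e j = ch.Fr.e j)
    (hc : ∀ i s, SemilinearAut.baseAut g ((ch.c i s : ↥d.A) : K) = ((ch.c i s : ↥d.A) : K))
    {v w : V} (hD : g • ch.D v = ch.D w) (j : Fin ch.N) (i : Fin (genusR K F)) :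
    ch.m hx j i w = SemilinearAut.baseAut g (ch.m hx j i v) := by
  have h1 := s33x_smul_mem_rr g (ch.m_spec hx v j)
  have h2 : g • (ch.B - ch.D v) = ch.B - ch.D w := by
    rw [smul_sub, hD, hB]
  rw [h2] at h1
  have h3 : g • (ch.Fr.e j - ∑ i, ch.m hx j i v • ch.cF i) =
      ch.Fr.e j - ∑ i, (fun i => SemilinearAut.baseAut g (ch.m hx j i v)) i • ch.cF i := by
    rw [smul_sub, he j, Finset.smul_sum]
    congr 1
    refine Finset.sum_congr rfl fun i _ => ?_
    rw [s33x_smul_smul, s33x_smul_cF ch g he hc i]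
  rw [h3] at h1
  exact (ch.m_unique hx w j _ h1 i).symm

end Equiv

section Model

open Fermat.Agent.TW Fermat.Agent.S33C

local notation "Qb" => AlgebraicClosure ℚ
local notation "GQ" => (AlgebraicClosure ℚ ≃ₐ[ℚ] AlgebraicClosure ℚ)

variable {F k Fb : Type} [Field F] [Algebra Qb F] [Field k] [CommRing Fb] [Nontrivial Fb]
  [Algebra k Fb]
variable {d : T2Base Qb F k Fb} {V : Type} [AddCommGroup V] [Finite V]
variable {x : F} (hx : IsFunctionFieldGen Qb F x)
  [Algebra.IsSeparable (IntermediateField.adjoin Qb {x}) F]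

/-- the chart functions, as one family -/
noncomputable def s33xFam (ch : S33xChart d V) :
    Fin ch.N × Fin (genusR Qb F) → V → Qb := fun ji => ch.m hx ji.1 ji.2

/-- **the chart functions of a one-cluster chart form an ALPHA-type family** -/
theorem s33x_fam (𝔓 : FFPlace) (hdA : d.A = 𝔓.P) (act : GQ → V →+ V) (ch : S33xChart d V)
    (hc : ∀ σ ∈ 𝔓.I, ∀ i s, σ ((ch.c i s : ↥d.A) : Qb) = ((ch.c i s : ↥d.A) : Qb))
    (hG : ∀ σ ∈ 𝔓.I, ∃ g : SemilinearAut Qb F, (∀ a : Qb, SemilinearAut.baseAut g a = σ a) ∧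
      g • ch.B = ch.B ∧ (∀ j, g • ch.Fr.e j = ch.Fr.e j) ∧ ∀ v, g • ch.D v = ch.D (act σ v)) :
    S33cFam 𝔓 act (s33xFam hx ch) := by
  classical
  haveI : Fintype V := Fintype.ofFinite V
  refine ⟨?_, ?_, ?_, ?_⟩
  · rintro ⟨j, i⟩ v
    have := ch.m_mem hx j i v
    rw [hdA] at this
    exact this
  · rintro ⟨j, i⟩ σ hσ v
    obtain ⟨g, hg, hB, he, hD⟩ := hG σ hσ
    have h := s33x_m_smul hx ch g hB he (fun i s => by rw [hg]; exact hc σ hσ i s) (hD v) j i
    rw [hg] at h
    exact h
  · intro v w hvw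
    by_contra hcon
    push Not at hcon
    exact hvw (ch.m_sep hx v w fun j i => hcon (j, i))
  · rintro ⟨j, i⟩
    have hkey := s33x_key hx ch j i
    have h1 := alpm_hcomul_of_adjoin d.A (s33xFam hx ch) (j, i) (by
      have : Set.range (Sum.elim (fun (i : Fin ch.N × Fin (genusR Qb F)) (p : V × V) =>
            s33xFam hx ch i p.1) (fun (i : Fin ch.N × Fin (genusR Qb F)) (p : V × V) =>
            s33xFam hx ch i p.2)) =
          Set.range (Sum.elim
            (fun (ji : Fin ch.N × Fin (genusR Qb F)) (p : V × V) => ch.m hx ji.1 ji.2 p.1)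
            (fun (ji : Fin ch.N × Fin (genusR Qb F)) (p : V × V) => ch.m hx ji.1 ji.2 p.2)) := rfl
      rw [this]
      exact hkey)
    obtain ⟨n, a, b, ha, hb, hab⟩ := h1
    refine ⟨n, a, b, fun t => ?_, fun t => ?_, hab⟩
    · have := ha t
      rw [hdA] at this
      exact this
    · have := hb t
      rw [hdA] at this
      exact this

include hx in
/-- **the connected function model of a one-cluster chart** -/
theorem s33x_exists_model (𝔓 : FFPlace) (hdA : d.A = 𝔓.P) (act : GQ → V →+ V)
    (ch : S33xChart d V)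
    (hc : ∀ σ ∈ 𝔓.I, ∀ i s, σ ((ch.c i s : ↥d.A) : Qb) = ((ch.c i s : ↥d.A) : Qb))
    (hG : ∀ σ ∈ 𝔓.I, ∃ g : SemilinearAut Qb F, (∀ a : Qb, SemilinearAut.baseAut g a = σ a) ∧
      g • ch.B = ch.B ∧ (∀ j, g • ch.Fr.e j = ch.Fr.e j) ∧ ∀ v, g • ch.D v = ch.D (act σ v)) :
    ∃ M : FFModel 𝔓 V act, ∀ y, M.OrdGT y 0 := by
  have hfam := s33x_fam hx 𝔓 hdA act ch hc hG
  obtain ⟨M, hM⟩ := s33c_exists_model hfam
  refine ⟨M, fun y => s33c_ordGT M hM hfam.int fun ji => ?_⟩
  obtain ⟨j, i⟩ := ji
  have h1 := ch.m_conn hx y 0 j i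
  rw [← sub_eq_zero, ← map_sub, d.resA_eq_zero_iff, IsLocalRing.mem_maximalIdeal,
    mem_nonunits_iff] at h1
  rw [← 𝔓.tk_valuation_lt_one_iff]
  have h2 : ¬ IsUnit (ch.mA hx j i y - ch.mA hx j i 0) := h1
  have h3 : d.A.valuation (((ch.mA hx j i y - ch.mA hx j i 0 : ↥d.A)) : Qb) < 1 := by
    rw [← not_le]
    intro hle
    apply h2
    have h4 : d.A.valuation (((ch.mA hx j i y - ch.mA hx j i 0 : ↥d.A)) : Qb) = 1 :=
      le_antisymm ((d.A.valuation_le_one_iff _).mpr (Subtype.property _)) hle
    exact (d.A.valuation_eq_one_iff _).mpr h4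
  have h5 : (((ch.mA hx j i y - ch.mA hx j i 0 : ↥d.A)) : Qb) =
      s33xFam hx ch (j, i) y - s33xFam hx ch (j, i) 0 := rfl
  rw [h5, hdA] at h3
  exact h3

end Model

end Fermat.Agent.S33
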