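/-
GAMMA-PTS-ABS (helper8): **the divisors `D v` of a one-cluster chart**, abstractly over a
two-valuation base (the analogue of helper9's `Lib/Alpha/Mod/Points.lean`).

Setting: `F / K` a function field (CurveP setting, generator `x`), `d : T2Base K F k Fb` with
(hunit) "an element of `𝒪` with unit residue is a unit of `𝒪`", `G` a set of semilinear
automorphisms, `B` any divisor, `E0` a `G`-invariant divisor of degree `g` such that
(hone) `resBall L(E0)` consists of constants, `V` a group with an injective homomorphism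
`ι : V →+ Pic⁰(F)` such that (BRIDGE) every class `ι v` has a representative `X` of degree `0`
which is invisible on the closed fibre for the two divisors `E0` and `B - E0`:
`resBall L(X + E0) ≤ resBall L(E0)` and `resBall L(B - E0 - X) = resBall L(B - E0)`.

Then there are effective divisors `D v` of degree `g` with `[D v - E0] = ι v`, `ℓ(D v) = 1`,
(CL) `resBall L(B - D v) = resBall L(B - E0)` (ONE CLUSTER) and `g • D v = D w` whenever
`ι w = g • ι v`, `g ∈ G`.

* `s33x_mem_rr_add_divOf`   : `s ∈ L(A + div f) ↔ f * s ∈ L(A)`;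
* `s33x_resBall_add_divOf`  : `resBall L(A + div u) = resBall L(A)` for a unit `u` of `𝒪` whose
  inverse has constant residue;
* `s33x_exists_points`.
-/
import Fermat.Agent.Lib.S33.Key.ChartN
import Fermat.Agent.Lib.Alpha.Mod.Prelim

set_option autoImplicit false
set_option linter.style.haveILetI false
set_option linter.unusedSectionVars false

namespace Fermat.Agent.S33

open AlgebraicCurve IntermediateField Fermat.Agent.Curve Fermat.Agent.CurveP
  Fermat.Agent.Curve.PlaceAux Fermat.Agent.T2 RRAux Fermat.Agent.Alpha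

variable {K F k Fb : Type*} [Field K] [Field F] [Algebra K F] [Field k] [CommRing Fb] [Algebra k Fb]
variable [IsAlgClosed K]
variable {x : F} (hx : IsFunctionFieldGen K F x)
  [Algebra.IsSeparable (IntermediateField.adjoin K {x}) F]

include hx in
/-- `s ∈ L(A + div f) ↔ f * s ∈ L(A)` -/
theorem s33x_mem_rr_add_divOf (A : Divisor K F) {f : F} (hf : f ≠ 0) (s : F) :
    s ∈ riemannRochSpace (A + divOf hx f) ↔ f * s ∈ riemannRochSpace A := by
  rw [mem_riemannRochSpace_iff, mem_riemannRochSpace_iff]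
  refine forall_congr' fun v => ?_
  by_cases hs : s = 0
  · subst hs
    simp
  · rw [Finsupp.add_apply, divOf_apply hx hf, v.ord_mul hf hs]
    constructor
    · rintro (h | h)
      · exact absurd h hs
      · right
        omega
    · rintro (h | h)
      · exact absurd h (mul_ne_zero hf hs)
      · right
        omega

include hx in
/-- `div (f⁻¹) = - div f` -/
theorem s33x_divOf_inv {f : F} (hf : f ≠ 0) : divOf hx f⁻¹ = - divOf hx f := by
  ext v
  rw [Finsupp.neg_apply, divOf_inv_apply hx hf, divOf_apply hx hf]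

include hx in
/-- **scaling by a unit with constant residue does not change the closed fibre** -/
theorem s33x_resBall_add_divOf (d : T2Base K F k Fb) (A : Divisor K F) {u : F} (hu : u ∈ d.Ov)
    (hu' : u⁻¹ ∈ d.Ov) {a : k} (ha : a ≠ 0) (hres : d.res ⟨u⁻¹, hu'⟩ = algebraMap k Fb a) :
    d.resBall (riemannRochSpace (A + divOf hx u)) = d.resBall (riemannRochSpace A) := by
  rcases eq_or_ne u 0 with rfl | hu0
  · have h0 : divOf hx (0 : F) = 0 := by
      rw [divOf, dif_neg (not_not.mpr rfl)]
    rw [h0, add_zero]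
  apply le_antisymm
  · rintro _ ⟨s, hs, rfl⟩
    have h1 : u * s ∈ d.ball (riemannRochSpace A) :=
      ⟨(s33x_mem_rr_add_divOf hx A hu0 s).mp hs.1, d.Ov.mul_mem hu hs.2⟩
    have h2 : d.res ⟨s, hs.2⟩ = a • d.res ⟨u * s, h1.2⟩ := by
      rw [Algebra.smul_def, ← hres, ← map_mul]
      congr 1
      apply Subtype.ext
      show s = u⁻¹ * (u * s)
      rw [← mul_assoc, inv_mul_cancel₀ hu0, one_mul]
    rw [h2]
    exact Submodule.smul_mem _ _ ⟨u * s, h1, rfl⟩
  · rintro _ ⟨s, hs, rfl⟩
    have h1 : u⁻¹ * s ∈ d.ball (riemannRochSpace (A + divOf hx u)) := by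
      refine ⟨(s33x_mem_rr_add_divOf hx A hu0 _).mpr ?_, d.Ov.mul_mem hu' hs.2⟩
      rw [← mul_assoc, mul_inv_cancel₀ hu0, one_mul]
      exact hs.1
    have h2 : d.res ⟨u⁻¹ * s, h1.2⟩ = a • d.res ⟨s, hs.2⟩ := by
      rw [Algebra.smul_def, ← hres, ← map_mul]
      rfl
    have h3 : d.res ⟨s, hs.2⟩ = a⁻¹ • d.res ⟨u⁻¹ * s, h1.2⟩ := by
      rw [h2, smul_smul, inv_mul_cancel₀ ha, one_smul]
    rw [h3]
    exact Submodule.smul_mem _ _ ⟨u⁻¹ * s, h1, rfl⟩

include hx in
/-- **the divisors of a one-cluster chart** -/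
theorem s33x_exists_points (d : T2Base K F k Fb)
    (hunit : ∀ f (hf : f ∈ d.Ov), IsUnit (d.res ⟨f, hf⟩) → f⁻¹ ∈ d.Ov)
    (G : Set (SemilinearAut K F)) (B E0 : Divisor K F)
    (hE0deg : Divisor.degree E0 = genusR K F) (hE0G : ∀ g ∈ G, g • E0 = E0)
    (hone : ∀ t ∈ d.resBall (riemannRochSpace E0), ∃ a : k, t = algebraMap k Fb a)
    {V : Type*} [AddCommGroup V] (ι : V →+ Pic0 K F) (hι : Function.Injective ι)
    (hbr : ∀ v : V, ∃ X : Divisor.degZero (K := K) (F := F), Pic0.mk X = ι v ∧
      d.resBall (riemannRochSpace ((X : Divisor K F) + E0)) ≤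
        d.resBall (riemannRochSpace E0) ∧
      d.resBall (riemannRochSpace (B - E0 - (X : Divisor K F))) =
        d.resBall (riemannRochSpace (B - E0))) :
    ∃ D : V → Divisor K F,
      (∀ v, 0 ≤ D v) ∧ (∀ v, Divisor.degree (D v) = genusR K F) ∧ Function.Injective D ∧
      (∀ v w, ∃ h : F, h ≠ 0 ∧ ∀ P : Place K F, P.ord h = (D (v + w) + E0 - D v - D w) P) ∧
      (∀ v, ell (D v) = 1) ∧
      (∀ v, d.resBall (riemannRochSpace (B - D v)) = d.resBall (riemannRochSpace (B - E0))) ∧
      (∀ v, ∃ hdeg : D v - E0 ∈ Divisor.degZero (K := K) (F := F),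
        Pic0.mk ⟨D v - E0, hdeg⟩ = ι v) ∧
      (∀ g ∈ G, ∀ v w, ι w = g • ι v → g • D v = D w) := by
  classical
  choose X hX hbr1 hbr2 using hbr
  have hXdeg : ∀ v, Divisor.degree ((X v : Divisor.degZero (K := K) (F := F)) : Divisor K F) = 0 :=
    fun v => (X v).2
  -- `ℓ(X v + E0) = 1`
  have hell : ∀ v, ell (((X v : Divisor.degZero (K := K) (F := F)) : Divisor K F) + E0) = 1 := by
    intro v
    set A : Divisor K F := ((X v : Divisor.degZero (K := K) (F := F)) : Divisor K F) + E0 with hA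
    haveI : FiniteDimensional K ↥(riemannRochSpace A) :=
      CurveP.finiteDimensional_riemannRochSpace hx A
    have h1 : d.resBall (riemannRochSpace A) ≤ Submodule.span k {(1 : Fb)} := by
      intro t ht
      obtain ⟨a, rfl⟩ := hone t (hbr1 v ht)
      rw [Algebra.algebraMap_eq_smul_one]
      exact Submodule.smul_mem _ _ (Submodule.subset_span rfl)
    have h2 : Module.finrank k ↥(d.resBall (riemannRochSpace A)) ≤ 1 :=
      (Submodule.finrank_mono h1).trans (by
        have := finrank_span_le_card (R := k) ({(1 : Fb)} : Set Fb)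
        simpa using this)
    rw [d.finrank_resBall] at h2
    have h3 := le_ell hx A
    rw [hA, map_add, hXdeg, hE0deg] at h3
    have h4 : Module.finrank K ↥(riemannRochSpace A) = ell A := rfl
    have h5 : (1 : ℤ) ≤ (ell A : ℤ) := by
      rw [hA]
      linarith
    have h6 : 1 ≤ ell A := by exact_mod_cast h5
    omega
  -- the sections, normalised
  have hf : ∀ v : V, ∃ f : F, f ≠ 0 ∧
      0 ≤ ((X v : Divisor.degZero (K := K) (F := F)) : Divisor K F) + E0 + divOf hx f ∧
      ∃ (hO : f ∈ d.Ov) (hO' : f⁻¹ ∈ d.Ov) (a : k), a ≠ 0 ∧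
        d.res ⟨f, hO⟩ = algebraMap k Fb a := by
    intro v
    obtain ⟨f0, hf0, hfnn⟩ := alpk_exists_effective hx
      (E := ((X v : Divisor.degZero (K := K) (F := F)) : Divisor K F) + E0) (by rw [hell v])
    obtain ⟨c, hc0, hcO, hcres⟩ := d.normalize f0 hf0
    have hcf0 : c • f0 ≠ 0 := smul_ne_zero hc0 hf0
    have hdiv : divOf hx (c • f0) = divOf hx f0 := alpk_divOf_smul hx hc0 hf0
    have hmem : c • f0 ∈ riemannRochSpace
        (((X v : Divisor.degZero (K := K) (F := F)) : Divisor K F) + E0) := by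
      rw [mem_riemannRochSpace_iff]
      intro P
      right
      have h1 := hfnn P
      rw [Finsupp.zero_apply, Finsupp.add_apply, ← hdiv, divOf_apply hx hcf0] at h1
      omega
    obtain ⟨a, ha⟩ := hone _ (hbr1 v ⟨c • f0, ⟨hmem, hcO⟩, rfl⟩)
    have ha0 : a ≠ 0 := by
      rintro rfl
      rw [map_zero] at ha
      exact hcres ha
    have hu : IsUnit (d.res ⟨c • f0, hcO⟩) := by
      rw [ha]
      exact (IsUnit.mk0 a ha0).map (algebraMap k Fb)
    exact ⟨c • f0, hcf0, by rw [hdiv]; exact hfnn, hcO, hunit _ hcO hu, a, ha0, ha⟩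
  choose f hf0 hfnn hfO hfO' a ha0 hfa using hf
  set D : V → Divisor K F := fun v =>
    ((X v : Divisor.degZero (K := K) (F := F)) : Divisor K F) + E0 + divOf hx (f v) with hD
  have hDsub : ∀ v, D v - E0 =
      ((X v : Divisor.degZero (K := K) (F := F)) : Divisor K F) + divOf hx (f v) := by
    intro v
    show ((X v : Divisor.degZero (K := K) (F := F)) : Divisor K F) + E0 + divOf hx (f v) - E0 = _
    rw [add_right_comm, add_sub_cancel_right]
  have hDdeg : ∀ v, Divisor.degree (D v) = genusR K F := by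
    intro v
    rw [hD]
    simp only [map_add, hXdeg, hE0deg, degree_divOf, zero_add, add_zero]
  have hDdz : ∀ v, D v - E0 ∈ Divisor.degZero (K := K) (F := F) := by
    intro v
    rw [Divisor.mem_degZero, map_sub, hDdeg, hE0deg, sub_self]
  have hDcl : ∀ v, Pic0.mk ⟨D v - E0, hDdz v⟩ = ι v := by
    intro v
    rw [← hX v, alpm_mk_eq_iff]
    show D v - E0 - ((X v : Divisor.degZero (K := K) (F := F)) : Divisor K F) ∈ _
    rw [hDsub v, add_sub_cancel_left]
    exact alpm_divOf_mem_principal hx (hf0 v)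
  refine ⟨D, hfnn, hDdeg, ?_, ?_, ?_, ?_, fun v => ⟨hDdz v, hDcl v⟩, ?_⟩
  · -- injectivity
    intro v w hvw
    apply hι
    have h1 : (⟨D v - E0, hDdz v⟩ : Divisor.degZero (K := K) (F := F)) = ⟨D w - E0, hDdz w⟩ :=
      Subtype.ext (by show D v - E0 = D w - E0; rw [hvw])
    rw [← hDcl v, ← hDcl w, h1]
  · -- the group law
    intro v w
    have h1 : Pic0.mk ⟨D (v + w) - E0, hDdz (v + w)⟩ =
        Pic0.mk (⟨D v - E0, hDdz v⟩ + ⟨D w - E0, hDdz w⟩) := by
      rw [Pic0.mk_add, hDcl, hDcl, hDcl, map_add]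
    rw [alpm_mk_eq_iff] at h1
    obtain ⟨h, hh0, hh⟩ := h1
    refine ⟨h, hh0, fun P => ?_⟩
    rw [← hh P]
    show (D (v + w) - E0 - (D v - E0 + (D w - E0))) P = (D (v + w) + E0 - D v - D w) P
    simp only [Finsupp.sub_apply, Finsupp.add_apply]
    ring
  · -- `ℓ(D v) = 1`
    intro v
    rw [hD]
    show ell (((X v : Divisor.degZero (K := K) (F := F)) : Divisor K F) + E0 + divOf hx (f v)) = 1
    rw [ell_add_divOf hx _ (hf0 v)]
    exact hell v
  · -- (CL): one cluster
    intro v
    have h1 : B - D v = B - E0 - ((X v : Divisor.degZero (K := K) (F := F)) : Divisor K F) +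
        divOf hx (f v)⁻¹ := by
      show B - (((X v : Divisor.degZero (K := K) (F := F)) : Divisor K F) + E0 +
        divOf hx (f v)) = _
      rw [s33x_divOf_inv hx (hf0 v)]
      abel
    rw [h1, ← hbr2 v]
    refine s33x_resBall_add_divOf hx d _ (hfO' v) (by rw [inv_inv]; exact hfO v) (ha0 v) ?_
    rw [← hfa v]
    congr 1
    apply Subtype.ext
    exact inv_inv _
  · -- equivariance
    intro g hgG v w hw
    have h1 : Pic0.mk (SemilinearAut.degZeroSMulHom g (X v)) = Pic0.mk (X w) := by
      rw [← SemilinearAut.pic0_smul_mk, hX v, hX w, hw]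
    rw [alpm_mk_eq_iff, SemilinearAut.coe_degZeroSMulHom] at h1
    obtain ⟨h, hh0, hh⟩ := alpm_eq_divOf_of_principal hx h1
    have hgf0 : g • f v ≠ 0 := by
      rw [SemilinearAut.smul_def]
      exact (map_ne_zero_iff _ (SemilinearAut.toRingAut g).injective).mpr (hf0 v)
    have h2 : g • D v = ((X w : Divisor.degZero (K := K) (F := F)) : Divisor K F) + E0 +
        divOf hx (h * g • f v) := by
      rw [hD]
      simp only [smul_add]
      rw [hE0G g hgG, alpm_smul_divOf hx g (hf0 v), alpm_divOf_mul hx hh0 hgf0, ← hh]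
      abel
    rw [h2]
    exact alpk_unique_effective hx (hell w) (mul_ne_zero hh0 hgf0) (hf0 w)
      (by rw [← h2]; exact alpm_smul_nonneg g (hfnn v)) (hfnn w)

end Fermat.Agent.S33
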