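/-
GAMMA-BRIDGE-ABS (helper8): **ROOT and BRIDGE**, abstractly.

* ROOT (closed fibre, pure nodal-curve statement in helper3's `Nod/Defs` language): if `k` has
  injective `p`-th power map (e.g. characteristic `p`), then
  `t ^ p ∈ s33nL N (p • A₁) (p • A₂) → t ∈ s33nL N A₁ A₂` (`s33b_root`).  The gluing condition uses
  `s33b_root_pi`: a subalgebra `Δ` of `k^ι` (`ι` finite) contains `v` as soon as it contains `v ^ p`
  (Lagrange interpolation: `v` is a polynomial in `v ^ p`).
* BRIDGE (two-valuation base `d : T2Base K F k Fb`): if `y ∈ 𝒪ˣ` has residue `1` and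
  `div y = p • X`, then a divisor class `X` is invisible on the closed fibre:
  `resBall L(A - X) ≤ M` whenever `resBall L(p • A) ≤ Mp` and `t ^ p ∈ Mp → t ∈ M`
  (`s33b_bridge_le`), and `s33b_bridge`: the two conjuncts of the hypothesis `hbr` of
  `s33x_exists_points` / `s33x_model_of_data`.
-/
import Fermat.Agent.Lib.S33.Key.PointsN
import Fermat.Agent.Lib.S33.Nod.Defs

set_option autoImplicit false
set_option linter.style.haveILetI false
set_option linter.unusedSectionVars false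

namespace Fermat.Agent.S33

open AlgebraicCurve IntermediateField Fermat.Agent.Curve Fermat.Agent.CurveP
  Fermat.Agent.Curve.PlaceAux Fermat.Agent.T2 RRAux Fermat.Agent.Alpha Fermat.Agent.S33N

section Root

/-- `p`-th roots in a subalgebra of a finite product of copies of a field -/
theorem s33b_root_pi {k ι : Type*} [Field k] [Finite ι] (Δ : Subalgebra k (ι → k)) (p : ℕ)
    (hinj : Function.Injective (fun a : k => a ^ p)) (v : ι → k) (hv : v ^ p ∈ Δ) : v ∈ Δ := by
  classical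
  haveI := Fintype.ofFinite ι
  set s : Finset k := Finset.univ.image v with hs
  set P : Polynomial k := Lagrange.interpolate s (fun c => c ^ p) (fun c => c) with hP
  have hnode : Set.InjOn (fun c : k => c ^ p) (s : Set k) := fun a _ b _ h => hinj h
  have hev : ∀ i, Polynomial.eval ((v i) ^ p) P = v i := fun i =>
    Lagrange.eval_interpolate_at_node (fun c => c) hnode
      (Finset.mem_image_of_mem v (Finset.mem_univ i))
  have h1 : Polynomial.aeval (v ^ p) P ∈ Δ :=
    Algebra.adjoin_le (Set.singleton_subset_iff.mpr hv)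
      (Polynomial.aeval_mem_adjoin_singleton k (v ^ p))
  have h2 : Polynomial.aeval (v ^ p) P = v := by
    funext i
    have h3 := Polynomial.aeval_algHom_apply (Pi.evalAlgHom k (fun _ : ι => k) i) (v ^ p) P
    rw [Pi.evalAlgHom_apply, Pi.evalAlgHom_apply] at h3
    rw [← h3, Pi.pow_apply, Polynomial.coe_aeval_eq_eval]
    exact hev i
  rw [← h2]
  exact h1

variable {k : Type*} [Field k]

/-- `f ^ p ∈ L(p • A) → f ∈ L(A)` -/
theorem s33b_root_rr {F : Type*} [Field F] [Algebra k F] {p : ℕ} (hp : 0 < p) (A : Divisor k F)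
    {f : F} (hf : f ^ p ∈ riemannRochSpace (p • A)) : f ∈ riemannRochSpace A := by
  rw [mem_riemannRochSpace_iff] at hf ⊢
  intro v
  rcases hf v with h | h
  · left
    exact (pow_eq_zero_iff hp.ne').mp h
  · right
    have h1 : v.ord (f ^ p) = p * v.ord f := by
      have := v.ord_zpow f p
      rwa [zpow_natCast] at this
    rw [h1, Finsupp.smul_apply, nsmul_eq_mul] at h
    have hp' : (0 : ℤ) < p := by exact_mod_cast hp
    by_contra hlt
    push Not at hlt
    have h2 : v.ord f + A v ≤ -1 := by omega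
    nlinarith

/-- `f ^ p` regular at `v` implies `f` regular at `v` -/
theorem s33b_root_hasVal [IsAlgClosed k] {F : Type*} [Field F] [Algebra k F] {x : F}
    (hx : IsFunctionFieldGen k F x) {p : ℕ} (hp : 0 < p) {v : Place k F} {f : F}
    (h : S33nHasVal v (f ^ p)) : S33nHasVal v f := by
  rw [s33n_hasVal_iff hx, PlaceAux.mem_iff] at h ⊢
  rcases h with h | h
  · left
    exact (pow_eq_zero_iff hp.ne').mp h
  · right
    have h1 : v.ord (f ^ p) = p * v.ord f := by
      have := v.ord_zpow f p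
      rwa [zpow_natCast] at this
    rw [h1] at h
    have hp' : (0 : ℤ) < p := by exact_mod_cast hp
    by_contra hlt
    push Not at hlt
    have h2 : v.ord f ≤ -1 := by omega
    nlinarith

variable {F₁ F₂ σ₁ σ₂ : Type*} [Field F₁] [Field F₂] [Algebra k F₁] [Algebra k F₂]
  [IsAlgClosed k]

/-- values of powers -/
theorem s33b_ev_pow (N : S33nDatum k F₁ F₂ σ₁ σ₂) {t : F₁ × F₂} (ht : S33nReg N t) (n : ℕ) :
    S33nReg N (t ^ n) ∧ s33nEv N (t ^ n) = s33nEv N t ^ n := by
  induction n with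
  | zero =>
    rw [pow_zero, pow_zero]
    exact ⟨s33n_reg_one N, s33nEv_one N⟩
  | succ n ih =>
    rw [pow_succ, pow_succ]
    exact ⟨ih.1.mul N ht, by rw [s33nEv_mul N ih.1 ht, ih.2]⟩

/-- **ROOT**: `p`-th roots in the nodal Riemann–Roch spaces -/
theorem s33b_root {x₁ : F₁} {x₂ : F₂} (hx₁ : IsFunctionFieldGen k F₁ x₁)
    (hx₂ : IsFunctionFieldGen k F₂ x₂) (N : S33nDatum k F₁ F₂ σ₁ σ₂) [Finite σ₁] [Finite σ₂]
    {p : ℕ} (hp : 0 < p) (hinj : Function.Injective (fun a : k => a ^ p))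
    (A₁ : Divisor k F₁) (A₂ : Divisor k F₂) (t : F₁ × F₂)
    (ht : t ^ p ∈ s33nL N (p • A₁) (p • A₂)) : t ∈ s33nL N A₁ A₂ := by
  obtain ⟨h1, h2, hr, he⟩ := ht
  have hreg : S33nReg N t :=
    ⟨fun s => s33b_root_hasVal hx₁ hp (hr.1 s), fun s => s33b_root_hasVal hx₂ hp (hr.2 s)⟩
  refine ⟨s33b_root_rr hp A₁ h1, s33b_root_rr hp A₂ h2, hreg, ?_⟩
  rw [(s33b_ev_pow N hreg p).2] at he
  exact s33b_root_pi N.Δ p hinj _ he

end Root

section Bridge

variable {K F k Fb : Type*} [Field K] [Field F] [Algebra K F] [Field k] [CommRing Fb] [Algebra k Fb]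
variable [IsAlgClosed K]
variable {x : F} (hx : IsFunctionFieldGen K F x)
  [Algebra.IsSeparable (IntermediateField.adjoin K {x}) F]

omit [IsAlgClosed K] in
/-- powers of sections -/
theorem s33b_pow_mem_rr {A : Divisor K F} {s : F} (hs : s ∈ riemannRochSpace A) (p : ℕ) :
    s ^ p ∈ riemannRochSpace (p • A) := by
  induction p with
  | zero =>
    rw [pow_zero, zero_smul, mem_riemannRochSpace_iff]
    intro v
    right
    rw [v.ord_one, Finsupp.zero_apply, neg_zero]
  | succ n ih =>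
    rw [pow_succ, succ_nsmul]
    exact mul_mem_riemannRochSpace ih hs

include hx in
/-- **BRIDGE, inclusion**: a class `X` with `p • X = div y`, `y ≡ 1`, is invisible on the closed
fibre (given the closed-fibre dictionary for `p • A` and ROOT) -/
theorem s33b_bridge_le (d : T2Base K F k Fb) {p : ℕ} (A X : Divisor K F) {y : F} (hy0 : y ≠ 0)
    (hy : y ∈ d.Ov) (hy' : y⁻¹ ∈ d.Ov) (hres : d.res ⟨y, hy⟩ = 1)
    (hdiv : divOf hx y = p • X) (M Mp : Submodule k Fb)
    (hMp : d.resBall (riemannRochSpace (p • A)) ≤ Mp) (hroot : ∀ t : Fb, t ^ p ∈ Mp → t ∈ M) :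
    d.resBall (riemannRochSpace (A - X)) ≤ M := by
  rintro _ ⟨s, hs, rfl⟩
  apply hroot
  apply hMp
  have h1 : s ^ p ∈ riemannRochSpace (p • (A - X)) := s33b_pow_mem_rr hs.1 p
  have h2 : p • (A - X) = p • A + divOf hx y⁻¹ := by
    rw [s33x_divOf_inv hx hy0, hdiv, smul_sub, sub_eq_add_neg]
  rw [h2, s33x_mem_rr_add_divOf hx _ (inv_ne_zero hy0)] at h1
  refine ⟨y⁻¹ * s ^ p, ⟨h1, d.Ov.mul_mem hy' (d.Ov.pow_mem hs.2 p)⟩, ?_⟩
  have h3 : d.res ⟨y⁻¹, hy'⟩ = 1 := by
    have h4 : d.res ⟨y, hy⟩ * d.res ⟨y⁻¹, hy'⟩ = 1 := by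
      rw [← map_mul]
      have h5 : (⟨y, hy⟩ * ⟨y⁻¹, hy'⟩ : ↥d.Ov) = 1 := Subtype.ext (mul_inv_cancel₀ hy0)
      rw [h5, map_one]
    rwa [hres, one_mul] at h4
  have h6 : d.res ⟨y⁻¹ * s ^ p, d.Ov.mul_mem hy' (d.Ov.pow_mem hs.2 p)⟩ =
      d.res ⟨y⁻¹, hy'⟩ * d.res ⟨s, hs.2⟩ ^ p := by
    rw [← map_pow, ← map_mul]
    rfl
  rw [h6, h3, one_mul]

include hx in
/-- **BRIDGE** in the form of the hypothesis `hbr` of `s33x_exists_points`: the two statements for
`A = E0` (inclusion) and `A = B - E0` (equality) -/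
theorem s33b_bridge (d : T2Base K F k Fb)
    (hunit : ∀ f (hf : f ∈ d.Ov), IsUnit (d.res ⟨f, hf⟩) → f⁻¹ ∈ d.Ov)
    {p : ℕ} (B E0 : Divisor K F)
    (hdeg : 2 * (genusR K F : ℤ) - 1 ≤ Divisor.degree (B - E0))
    (X : Divisor.degZero (K := K) (F := F)) {y : F} (hy0 : y ≠ 0)
    (hy : y ∈ d.Ov) (hres : d.res ⟨y, hy⟩ = 1)
    (hdiv : divOf hx y = p • (X : Divisor K F))
    (M1 M1p : Submodule k Fb) (h1p : d.resBall (riemannRochSpace (p • E0)) ≤ M1p)
    (h1root : ∀ t : Fb, t ^ p ∈ M1p → t ∈ M1) (h1 : M1 ≤ d.resBall (riemannRochSpace E0))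
    (M2 M2p : Submodule k Fb) (h2p : d.resBall (riemannRochSpace (p • (B - E0))) ≤ M2p)
    (h2root : ∀ t : Fb, t ^ p ∈ M2p → t ∈ M2)
    (h2 : M2 ≤ d.resBall (riemannRochSpace (B - E0))) :
    d.resBall (riemannRochSpace ((X : Divisor K F) + E0)) ≤ d.resBall (riemannRochSpace E0) ∧
    d.resBall (riemannRochSpace (B - E0 - (X : Divisor K F))) =
      d.resBall (riemannRochSpace (B - E0)) := by
  have hy' : y⁻¹ ∈ d.Ov := hunit y hy (by rw [hres]; exact isUnit_one)
  have hres' : d.res ⟨y⁻¹, hy'⟩ = 1 := by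
    have h4 : d.res ⟨y, hy⟩ * d.res ⟨y⁻¹, hy'⟩ = 1 := by
      rw [← map_mul]
      have h5 : (⟨y, hy⟩ * ⟨y⁻¹, hy'⟩ : ↥d.Ov) = 1 := Subtype.ext (mul_inv_cancel₀ hy0)
      rw [h5, map_one]
    rwa [hres, one_mul] at h4
  constructor
  · have h := s33b_bridge_le hx d E0 (-(X : Divisor K F)) (inv_ne_zero hy0) hy'
      (by rw [inv_inv]; exact hy) hres'
      (by rw [s33x_divOf_inv hx hy0, hdiv, smul_neg]) M1 M1p h1p h1root
    rw [sub_neg_eq_add, add_comm] at h
    exact h.trans h1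
  · have hle : d.resBall (riemannRochSpace (B - E0 - (X : Divisor K F))) ≤
        d.resBall (riemannRochSpace (B - E0)) :=
      (s33b_bridge_le hx d (B - E0) (X : Divisor K F) hy0 hy hy' hres hdiv M2 M2p h2p
        h2root).trans h2
    haveI : FiniteDimensional K ↥(riemannRochSpace (B - E0 - (X : Divisor K F))) :=
      CurveP.finiteDimensional_riemannRochSpace hx _
    haveI : FiniteDimensional K ↥(riemannRochSpace (B - E0)) :=
      CurveP.finiteDimensional_riemannRochSpace hx _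
    haveI := d.finiteDimensional_resBall (riemannRochSpace (B - E0))
    have hXdeg : Divisor.degree (X : Divisor K F) = 0 := X.2
    have e1 : (ell (B - E0 - (X : Divisor K F)) : ℤ) = ell (B - E0) := by
      rw [alpk_ell_eq hx (A := B - E0 - (X : Divisor K F)) (by rw [map_sub, hXdeg]; omega),
        alpk_ell_eq hx (A := B - E0) hdeg, map_sub _ (B - E0), hXdeg, sub_zero]
    have e2 : ell (B - E0 - (X : Divisor K F)) = ell (B - E0) := by exact_mod_cast e1
    refine Submodule.eq_of_le_of_finrank_le hle ?_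
    rw [d.finrank_resBall, d.finrank_resBall]
    exact e2.ge

end Bridge

end Fermat.Agent.S33
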