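/-
GAMMA-CHART-ABS (helper8): **the connected function model from the ingredients**, abstractly over a
two-valuation base with `K = ℚ̄`, `A = 𝔓.P` (the analogue of helper9's
`Lib/Alpha/Mod/ChartAbs.lean` + `Mod/Chart.lean`, glued to `s33x_exists_model`).

Ingredients (all for ONE pair of divisors `(B, E0)`):
* (hunit)  an element of `𝒪` with unit residue is a unit of `𝒪`                 [BASE]
* `Gof : G_ℚ → SemilinearAut ℚ̄ F`, the action on functions, inducing `σ` on `ℚ̄`   [BASE]
* `B` of degree `n ≥ 6 g + 2`, `E0 ≥ 0` of degree `g`, both fixed by inertia      [INV / CHART]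
* (hone)   `resBall L(E0)` consists of constants                                  [RED + CHART-NOD]
* `ι : V →+ Pic⁰(F)` injective and inertia-equivariant                            [final assembly]
* (hbr)    BRIDGE for `A = E0` and `A = B - E0`                                   [BRIDGE]
* an inertia-fixed frame `Fr` of `L(B)` and inertia-fixed complement coordinates `c` with (G2)
                                                                                  [INV-nod]
* (KM-prod), (KM-hom), (KM-col), (KM-unit) for `(B, E0)`                          [KM-NOD + RED]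

Output: a function model `M : FFModel 𝔓 V act` with `M.OrdGT y 0` for all `y` (connected), i.e.
the hypothesis of helper1's `s33c_F3_of_model`.

* `s33x_exists_chart_abs` : the chart (with `ch.B = B`, `ch.E0 = E0`, `ch.Fr = Fr`, `ch.c = c`);
* `s33x_model_of_data`    : the model.
-/
import Fermat.Agent.Lib.S33.Key.PointsN
import Fermat.Agent.Lib.S33.Key.EndN

set_option autoImplicit false
set_option linter.style.haveILetI false
set_option linter.unusedSectionVars false

namespace Fermat.Agent.S33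

open AlgebraicCurve IntermediateField Fermat.Agent.Curve Fermat.Agent.CurveP
  Fermat.Agent.Curve.PlaceAux Fermat.Agent.T2 RRAux Fermat.Agent.Alpha

section Abs

variable {K F k Fb : Type*} [Field K] [Field F] [Algebra K F] [Field k] [CommRing Fb] [Algebra k Fb]
variable [IsAlgClosed K]
variable {x : F} (hx : IsFunctionFieldGen K F x)
  [Algebra.IsSeparable (IntermediateField.adjoin K {x}) F]

include hx in
/-- **existence of the one-cluster chart** with prescribed `B`, `E0`, frame and complement -/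
theorem s33x_exists_chart_abs (d : T2Base K F k Fb)
    (hunit : ∀ f (hf : f ∈ d.Ov), IsUnit (d.res ⟨f, hf⟩) → f⁻¹ ∈ d.Ov)
    (G : Set (SemilinearAut K F)) (B : Divisor K F) (n : ℕ)
    (hBdeg : Divisor.degree B = (n : ℤ)) (hn : 6 * genusR K F + 2 ≤ n)
    (E0 : Divisor K F) (hE0 : 0 ≤ E0)
    (hE0deg : Divisor.degree E0 = genusR K F) (hE0G : ∀ g ∈ G, g • E0 = E0)
    (hone : ∀ t ∈ d.resBall (riemannRochSpace E0), ∃ a : k, t = algebraMap k Fb a)
    {V : Type*} [AddCommGroup V] (ι : V →+ Pic0 K F) (hι : Function.Injective ι)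
    (hbr : ∀ v : V, ∃ X : Divisor.degZero (K := K) (F := F), Pic0.mk X = ι v ∧
      d.resBall (riemannRochSpace ((X : Divisor K F) + E0)) ≤
        d.resBall (riemannRochSpace E0) ∧
      d.resBall (riemannRochSpace (B - E0 - (X : Divisor K F))) =
        d.resBall (riemannRochSpace (B - E0)))
    {N : ℕ} (Fr : S33xFrame d N) (hFr : Fr.spanK = riemannRochSpace B)
    (c : Fin (genusR K F) → Fin N → ↥d.A)
    (hG2a : ∀ γ : Fin (genusR K F) → k,
      (∑ i, γ i • Fr.combB (fun s => d.resA (c i s))) ∈ d.resBall (riemannRochSpace (B - E0)) →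
        γ = 0)
    (hG2b : Fr.spanB ≤ d.resBall (riemannRochSpace (B - E0)) ⊔
      Submodule.span k (Set.range fun i => Fr.combB (fun s => d.resA (c i s))))
    (hKprod : d.resBall (riemannRochSpace (B + B - E0 - E0)) ≤
      d.resBall (riemannRochSpace (B - E0)) * d.resBall (riemannRochSpace (B - E0)))
    (hKhom : ∀ h : Fb, (∀ t ∈ d.resBall (riemannRochSpace (B + B - E0 - E0)),
      h * t ∈ d.resBall (riemannRochSpace (B + B - E0))) → ∃ a : k, h = algebraMap k Fb a)
    (hKcol : ∀ u ∈ d.resBall (riemannRochSpace B),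
      (∀ b ∈ d.resBall (riemannRochSpace (B - E0)),
        u * b ∈ d.resBall (riemannRochSpace (B + B - E0 - E0))) →
        u ∈ d.resBall (riemannRochSpace (B - E0)))
    (hKunit : ∀ {ι' : Type} (f : ι' → Fb),
      Submodule.span k (Set.range f) = d.resBall (riemannRochSpace (B - E0)) →
        ∃ j, IsUnit (f j)) :
    ∃ ch : S33xChart d V, ch.B = B ∧ ch.E0 = E0 ∧
      (∃ hN : ch.N = N, (∀ j : Fin N, ch.Fr.e (Fin.cast hN.symm j) = Fr.e j) ∧
        ∀ i (s : Fin N), ch.c i (Fin.cast hN.symm s) = c i s) ∧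
      (∀ v, ∃ hdeg : ch.D v - E0 ∈ Divisor.degZero (K := K) (F := F),
        Pic0.mk ⟨ch.D v - E0, hdeg⟩ = ι v) ∧
      (∀ g ∈ G, ∀ v w, ι w = g • ι v → g • ch.D v = ch.D w) := by
  obtain ⟨D, hD, hDdeg, hDinj, hadd, hell, hcl, hDcl, hDG⟩ :=
    s33x_exists_points hx d hunit G B E0 hE0deg hE0G hone ι hι hbr
  exact ⟨{ B := B
           n := n
           hBdeg := hBdeg
           hn := hn
           E0 := E0
           hE0 := hE0
           hE0deg := hE0deg
           D := D
           hD := hD
           hDdeg := hDdeg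
           hDinj := hDinj
           hadd := hadd
           hell := hell
           N := N
           Fr := Fr
           hFr := hFr
           c := c
           hcl := hcl
           hG2a := hG2a
           hG2b := hG2b
           hKprod := hKprod
           hKhom := hKhom
           hKcol := hKcol
           hKunit := hKunit }, rfl, rfl, ⟨rfl, fun _ => rfl, fun _ _ => rfl⟩, hDcl, hDG⟩

end Abs

section Model

open Fermat.Agent.TW Fermat.Agent.S33C

local notation "Qb" => AlgebraicClosure ℚ
local notation "GQ" => (AlgebraicClosure ℚ ≃ₐ[ℚ] AlgebraicClosure ℚ)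

variable {F k Fb : Type} [Field F] [Algebra Qb F] [Field k] [CommRing Fb] [Nontrivial Fb]
  [Algebra k Fb]
variable {d : T2Base Qb F k Fb} {V : Type} [AddCommGroup V] [Finite V]
variable {x : F} (hx : IsFunctionFieldGen Qb F x)
  [Algebra.IsSeparable (IntermediateField.adjoin Qb {x}) F]

include hx in
/-- **the connected function model from the ingredients** -/
theorem s33x_model_of_data (𝔓 : FFPlace) (hdA : d.A = 𝔓.P) (act : GQ → V →+ V)
    (hunit : ∀ f (hf : f ∈ d.Ov), IsUnit (d.res ⟨f, hf⟩) → f⁻¹ ∈ d.Ov)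
    (Gof : GQ → SemilinearAut Qb F)
    (hGof : ∀ σ ∈ 𝔓.I, ∀ a : Qb, SemilinearAut.baseAut (Gof σ) a = σ a)
    (B : Divisor Qb F) (n : ℕ)
    (hBdeg : Divisor.degree B = (n : ℤ)) (hn : 6 * genusR Qb F + 2 ≤ n)
    (hBG : ∀ σ ∈ 𝔓.I, Gof σ • B = B)
    (E0 : Divisor Qb F) (hE0 : 0 ≤ E0)
    (hE0deg : Divisor.degree E0 = genusR Qb F) (hE0G : ∀ σ ∈ 𝔓.I, Gof σ • E0 = E0)
    (hone : ∀ t ∈ d.resBall (riemannRochSpace E0), ∃ a : k, t = algebraMap k Fb a)
    (ι : V →+ Pic0 Qb F) (hι : Function.Injective ι)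
    (hιact : ∀ σ ∈ 𝔓.I, ∀ v, ι (act σ v) = Gof σ • ι v)
    (hbr : ∀ v : V, ∃ X : Divisor.degZero (K := Qb) (F := F), Pic0.mk X = ι v ∧
      d.resBall (riemannRochSpace ((X : Divisor Qb F) + E0)) ≤
        d.resBall (riemannRochSpace E0) ∧
      d.resBall (riemannRochSpace (B - E0 - (X : Divisor Qb F))) =
        d.resBall (riemannRochSpace (B - E0)))
    {N : ℕ} (Fr : S33xFrame d N) (hFr : Fr.spanK = riemannRochSpace B)
    (heG : ∀ σ ∈ 𝔓.I, ∀ j, Gof σ • Fr.e j = Fr.e j)
    (c : Fin (genusR Qb F) → Fin N → ↥d.A)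
    (hcG : ∀ σ ∈ 𝔓.I, ∀ i s, σ ((c i s : ↥d.A) : Qb) = ((c i s : ↥d.A) : Qb))
    (hG2a : ∀ γ : Fin (genusR Qb F) → k,
      (∑ i, γ i • Fr.combB (fun s => d.resA (c i s))) ∈ d.resBall (riemannRochSpace (B - E0)) →
        γ = 0)
    (hG2b : Fr.spanB ≤ d.resBall (riemannRochSpace (B - E0)) ⊔
      Submodule.span k (Set.range fun i => Fr.combB (fun s => d.resA (c i s))))
    (hKprod : d.resBall (riemannRochSpace (B + B - E0 - E0)) ≤
      d.resBall (riemannRochSpace (B - E0)) * d.resBall (riemannRochSpace (B - E0)))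
    (hKhom : ∀ h : Fb, (∀ t ∈ d.resBall (riemannRochSpace (B + B - E0 - E0)),
      h * t ∈ d.resBall (riemannRochSpace (B + B - E0))) → ∃ a : k, h = algebraMap k Fb a)
    (hKcol : ∀ u ∈ d.resBall (riemannRochSpace B),
      (∀ b ∈ d.resBall (riemannRochSpace (B - E0)),
        u * b ∈ d.resBall (riemannRochSpace (B + B - E0 - E0))) →
        u ∈ d.resBall (riemannRochSpace (B - E0)))
    (hKunit : ∀ {ι' : Type} (f : ι' → Fb),
      Submodule.span k (Set.range f) = d.resBall (riemannRochSpace (B - E0)) →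
        ∃ j, IsUnit (f j)) :
    ∃ M : FFModel 𝔓 V act, ∀ y, M.OrdGT y 0 := by
  obtain ⟨D, hD, hDdeg, hDinj, hadd, hell, hcl, -, hDG⟩ :=
    s33x_exists_points hx d hunit {g | ∃ σ ∈ 𝔓.I, g = Gof σ} B E0 hE0deg
      (by rintro g ⟨σ, hσ, rfl⟩; exact hE0G σ hσ) hone ι hι hbr
  let ch : S33xChart d V :=
    { B := B
      n := n
      hBdeg := hBdeg
      hn := hn
      E0 := E0
      hE0 := hE0
      hE0deg := hE0deg
      D := D
      hD := hD
      hDdeg := hDdeg
      hDinj := hDinj
      hadd := hadd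
      hell := hell
      N := N
      Fr := Fr
      hFr := hFr
      c := c
      hcl := hcl
      hG2a := hG2a
      hG2b := hG2b
      hKprod := hKprod
      hKhom := hKhom
      hKcol := hKcol
      hKunit := hKunit }
  refine s33x_exists_model hx 𝔓 hdA act ch (fun σ hσ i s => hcG σ hσ i s) fun σ hσ => ?_
  exact ⟨Gof σ, hGof σ hσ, hBG σ hσ, heG σ hσ,
    fun v => hDG (Gof σ) ⟨σ, hσ, rfl⟩ v (act σ v) (hιact σ hσ v)⟩

end Model

end Fermat.Agent.S33
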